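/-
S25 package A3 (helper228): sub-glued-modules, quotients, short exact sequences.
Builds on Core (helper5425), A1/Basic + A1/Exact (helper7630), Euler1451 (helper1451), all verbatim.
-/
import Fermat.Agent.S25.A1.Basic
import Fermat.Agent.S25.Lib.Exact
import Fermat.Agent.S25.ATLAS.TW.Dep.Euler1451

set_option autoImplicit false

universe u

namespace Fermat.Agent.S25.ATLAS.TW

open Fermat.Agent.S25

variable {R : Type u} [CommRing R] {𝔹 : TwoChart R}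

/-- A sub-glued-module of `N`: submodules on the two charts with the same localisation `P₁₂`
on the overlap. -/
structure SubGlued (N : GluedModule 𝔹) where
  P₁ : Submodule 𝔹.B₁ N.N₁
  P₂ : Submodule 𝔹.B₂ N.N₂
  P₁₂ : Submodule 𝔹.B₁₂ N.N₁₂
  ι₁_mem : ∀ n ∈ P₁, N.ι₁ n ∈ P₁₂
  ι₂_mem : ∀ n ∈ P₂, N.ι₂ n ∈ P₁₂
  surj₁ : ∀ y ∈ P₁₂, ∃ n ∈ P₁, ∃ m : ℕ, y = 𝔹.r₂ 𝔹.g ^ m • N.ι₁ n
  surj₂ : ∀ y ∈ P₁₂, ∃ n ∈ P₂, ∃ m : ℕ, y = 𝔹.r₁ 𝔹.f ^ m • N.ι₂ n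

namespace SubGlued

variable {N : GluedModule 𝔹} (P : SubGlued N)

theorem fg_pow (m : ℕ) : 𝔹.r₁ 𝔹.f ^ m * 𝔹.r₂ 𝔹.g ^ m = 1 := by
  rw [← mul_pow, 𝔹.fg, one_pow]

theorem gf_pow (m : ℕ) : 𝔹.r₂ 𝔹.g ^ m * 𝔹.r₁ 𝔹.f ^ m = 1 := by
  rw [← mul_pow, 𝔹.gf, one_pow]

/-- Saturation on chart 1: if `ι₁ n ∈ P₁₂` then `f^m • n ∈ P₁` for some `m`. -/
theorem sat₁ (n : N.N₁) (h : N.ι₁ n ∈ P.P₁₂) : ∃ m : ℕ, 𝔹.f ^ m • n ∈ P.P₁ := by
  obtain ⟨w, hw, m, hm⟩ := P.surj₁ _ h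
  have h1 : N.ι₁ (𝔹.f ^ m • n - w) = 0 := by
    rw [map_sub, N.ι₁_smul, map_pow, hm, ← mul_smul, fg_pow, one_smul, sub_self]
  obtain ⟨e, he⟩ := N.ker₁ _ h1
  refine ⟨e + m, ?_⟩
  rw [smul_sub, sub_eq_zero, ← mul_smul, ← pow_add] at he
  rw [he]
  exact P.P₁.smul_mem _ hw

/-- Saturation on chart 2. -/
theorem sat₂ (n : N.N₂) (h : N.ι₂ n ∈ P.P₁₂) : ∃ m : ℕ, 𝔹.g ^ m • n ∈ P.P₂ := by
  obtain ⟨w, hw, m, hm⟩ := P.surj₂ _ h
  have h1 : N.ι₂ (𝔹.g ^ m • n - w) = 0 := by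
    rw [map_sub, N.ι₂_smul, map_pow, hm, ← mul_smul, gf_pow, one_smul, sub_self]
  obtain ⟨e, he⟩ := N.ker₂ _ h1
  refine ⟨e + m, ?_⟩
  rw [smul_sub, sub_eq_zero, ← mul_smul, ← pow_add] at he
  rw [he]
  exact P.P₂.smul_mem _ hw

/-- The sub-glued-module as a glued module. -/
@[reducible] def toGlued : GluedModule 𝔹 where
  N₁ := P.P₁
  N₂ := P.P₂
  N₁₂ := P.P₁₂
  ι₁ :=
    { toFun := fun n => ⟨N.ι₁ n.1, P.ι₁_mem _ n.2⟩
      map_add' := fun x y => Subtype.ext (map_add N.ι₁ x.1 y.1)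
      map_smul' := fun r x => Subtype.ext (map_smul N.ι₁ r x.1) }
  ι₂ :=
    { toFun := fun n => ⟨N.ι₂ n.1, P.ι₂_mem _ n.2⟩
      map_add' := fun x y => Subtype.ext (map_add N.ι₂ x.1 y.1)
      map_smul' := fun r x => Subtype.ext (map_smul N.ι₂ r x.1) }
  ι₁_smul b n := Subtype.ext (N.ι₁_smul b n.1)
  ι₂_smul b n := Subtype.ext (N.ι₂_smul b n.1)
  surj₁ y := by
    obtain ⟨n, hn, m, hm⟩ := P.surj₁ y.1 y.2
    exact ⟨⟨n, hn⟩, m, Subtype.ext hm⟩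
  ker₁ n h := by
    obtain ⟨m, hm⟩ := N.ker₁ n.1 (congrArg Subtype.val h)
    exact ⟨m, Subtype.ext hm⟩
  surj₂ y := by
    obtain ⟨n, hn, m, hm⟩ := P.surj₂ y.1 y.2
    exact ⟨⟨n, hn⟩, m, Subtype.ext hm⟩
  ker₂ n h := by
    obtain ⟨m, hm⟩ := N.ker₂ n.1 (congrArg Subtype.val h)
    exact ⟨m, Subtype.ext hm⟩

@[simp] theorem toGlued_ι₁_coe (n : P.P₁) : ((P.toGlued.ι₁ n : P.P₁₂) : N.N₁₂) = N.ι₁ n.1 := rfl

@[simp] theorem toGlued_ι₂_coe (n : P.P₂) : ((P.toGlued.ι₂ n : P.P₁₂) : N.N₁₂) = N.ι₂ n.1 := rfl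

/-- The inclusion of a sub-glued-module. -/
def incl : GluedModule.Hom P.toGlued N where
  φ₁ := P.P₁.subtype
  φ₂ := P.P₂.subtype
  φ₁₂ := P.P₁₂.subtype
  comm₁ _ := rfl
  comm₂ _ := rfl

/-- The restriction map on the quotient, chart 1. -/
def quotι₁ : (N.N₁ ⧸ P.P₁) →ₗ[R] (N.N₁₂ ⧸ P.P₁₂) :=
  (Submodule.Quotient.restrictScalarsEquiv R P.P₁₂).toLinearMap ∘ₗ
    (Submodule.mapQ (P.P₁.restrictScalars R) (P.P₁₂.restrictScalars R) N.ι₁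
      (fun n hn => P.ι₁_mem n hn)) ∘ₗ
    (Submodule.Quotient.restrictScalarsEquiv R P.P₁).symm.toLinearMap

/-- The restriction map on the quotient, chart 2. -/
def quotι₂ : (N.N₂ ⧸ P.P₂) →ₗ[R] (N.N₁₂ ⧸ P.P₁₂) :=
  (Submodule.Quotient.restrictScalarsEquiv R P.P₁₂).toLinearMap ∘ₗ
    (Submodule.mapQ (P.P₂.restrictScalars R) (P.P₁₂.restrictScalars R) N.ι₂
      (fun n hn => P.ι₂_mem n hn)) ∘ₗ
    (Submodule.Quotient.restrictScalarsEquiv R P.P₂).symm.toLinearMap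

@[simp] theorem quotι₁_mk (n : N.N₁) :
    P.quotι₁ (Submodule.Quotient.mk n) = Submodule.Quotient.mk (N.ι₁ n) := rfl

@[simp] theorem quotι₂_mk (n : N.N₂) :
    P.quotι₂ (Submodule.Quotient.mk n) = Submodule.Quotient.mk (N.ι₂ n) := rfl

/-- The quotient of a glued module by a sub-glued-module. -/
@[reducible] def quot : GluedModule 𝔹 where
  N₁ := N.N₁ ⧸ P.P₁
  N₂ := N.N₂ ⧸ P.P₂
  N₁₂ := N.N₁₂ ⧸ P.P₁₂
  ι₁ := P.quotι₁
  ι₂ := P.quotι₂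
  ι₁_smul b x := by
    obtain ⟨n, rfl⟩ := Submodule.Quotient.mk_surjective _ x
    rw [← Submodule.Quotient.mk_smul, quotι₁_mk, quotι₁_mk, N.ι₁_smul]
    rfl
  ι₂_smul b x := by
    obtain ⟨n, rfl⟩ := Submodule.Quotient.mk_surjective _ x
    rw [← Submodule.Quotient.mk_smul, quotι₂_mk, quotι₂_mk, N.ι₂_smul]
    rfl
  surj₁ y := by
    obtain ⟨y, rfl⟩ := Submodule.Quotient.mk_surjective _ y
    obtain ⟨n, m, rfl⟩ := N.surj₁ y
    exact ⟨Submodule.Quotient.mk n, m, rfl⟩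
  ker₁ x h := by
    obtain ⟨n, rfl⟩ := Submodule.Quotient.mk_surjective _ x
    rw [quotι₁_mk, Submodule.Quotient.mk_eq_zero] at h
    obtain ⟨m, hm⟩ := P.sat₁ n h
    exact ⟨m, by rw [← Submodule.Quotient.mk_smul, Submodule.Quotient.mk_eq_zero]; exact hm⟩
  surj₂ y := by
    obtain ⟨y, rfl⟩ := Submodule.Quotient.mk_surjective _ y
    obtain ⟨n, m, rfl⟩ := N.surj₂ y
    exact ⟨Submodule.Quotient.mk n, m, rfl⟩
  ker₂ x h := by
    obtain ⟨n, rfl⟩ := Submodule.Quotient.mk_surjective _ x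
    rw [quotι₂_mk, Submodule.Quotient.mk_eq_zero] at h
    obtain ⟨m, hm⟩ := P.sat₂ n h
    exact ⟨m, by rw [← Submodule.Quotient.mk_smul, Submodule.Quotient.mk_eq_zero]; exact hm⟩

/-- The projection onto the quotient. -/
def proj : GluedModule.Hom N P.quot where
  φ₁ := P.P₁.mkQ
  φ₂ := P.P₂.mkQ
  φ₁₂ := P.P₁₂.mkQ
  comm₁ _ := rfl
  comm₂ _ := rfl

/-- `0 → P → N → N/P → 0` is short exact. -/
theorem shortExact : GluedModule.ShortExact P.incl P.proj where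
  inj₁ := Submodule.injective_subtype _
  exact₁ := LinearMap.exact_subtype_mkQ _
  surj₁ := Submodule.mkQ_surjective _
  inj₂ := Submodule.injective_subtype _
  exact₂ := LinearMap.exact_subtype_mkQ _
  surj₂ := Submodule.mkQ_surjective _

/-- The image of a morphism, as a sub-glued-module of the target. -/
def ofHom {M : GluedModule 𝔹} (φ : GluedModule.Hom M N) : SubGlued N where
  P₁ := LinearMap.range φ.φ₁
  P₂ := LinearMap.range φ.φ₂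
  P₁₂ := LinearMap.range φ.φ₁₂
  ι₁_mem := by
    rintro _ ⟨m, rfl⟩
    exact ⟨M.ι₁ m, φ.comm₁ m⟩
  ι₂_mem := by
    rintro _ ⟨m, rfl⟩
    exact ⟨M.ι₂ m, φ.comm₂ m⟩
  surj₁ := by
    rintro _ ⟨z, rfl⟩
    obtain ⟨n, m, rfl⟩ := M.surj₁ z
    exact ⟨φ.φ₁ n, ⟨n, rfl⟩, m, by rw [map_smul, φ.comm₁]⟩
  surj₂ := by
    rintro _ ⟨z, rfl⟩
    obtain ⟨n, m, rfl⟩ := M.surj₂ z
    exact ⟨φ.φ₂ n, ⟨n, rfl⟩, m, by rw [map_smul, φ.comm₂]⟩

end SubGlued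

/-- The cokernel of a morphism of glued modules. -/
@[reducible] def coker {M N : GluedModule 𝔹} (φ : GluedModule.Hom M N) : GluedModule 𝔹 :=
  (SubGlued.ofHom φ).quot

/-- The projection onto the cokernel. -/
def toCoker {M N : GluedModule 𝔹} (φ : GluedModule.Hom M N) : GluedModule.Hom N (coker φ) :=
  (SubGlued.ofHom φ).proj

/-- A morphism that is injective on both charts sits in a short exact sequence with its
cokernel. -/
theorem shortExact_coker {M N : GluedModule 𝔹} (φ : GluedModule.Hom M N)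
    (h₁ : Function.Injective φ.φ₁) (h₂ : Function.Injective φ.φ₂) :
    GluedModule.ShortExact φ (toCoker φ) where
  inj₁ := h₁
  exact₁ := LinearMap.exact_map_mkQ_range _
  surj₁ := Submodule.mkQ_surjective _
  inj₂ := h₂
  exact₂ := LinearMap.exact_map_mkQ_range _
  surj₂ := Submodule.mkQ_surjective _

section Field

variable {κ : Type u} [Field κ] {𝔹 : TwoChart κ} {N' N N'' : GluedModule 𝔹}
  {i : GluedModule.Hom N' N} {p : GluedModule.Hom N N''}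

/-- A short exact sequence in the sense of A1 gives a `GluedSES` in the sense of `Euler1451`. -/
def gluedSES (h : GluedModule.ShortExact i p) : H1451.GluedSES N' N N'' where
  φ₁ := i.φ₁.restrictScalars κ
  φ₂ := i.φ₂.restrictScalars κ
  φ₁₂ := i.φ₁₂.restrictScalars κ
  ψ₁ := p.φ₁.restrictScalars κ
  ψ₂ := p.φ₂.restrictScalars κ
  ψ₁₂ := p.φ₁₂.restrictScalars κ
  inj₁ := h.inj₁
  inj₂ := h.inj₂
  inj₁₂ := h.inj₁₂
  ex₁ := h.exact₁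
  ex₂ := h.exact₂
  ex₁₂ := h.exact₁₂
  surj₁ := h.surj₁
  surj₂ := h.surj₂
  surj₁₂ := h.surj₁₂
  φ_comm₁ := i.comm₁
  φ_comm₂ := i.comm₂
  ψ_comm₁ := p.comm₁
  ψ_comm₂ := p.comm₂

end Field

end Fermat.Agent.S25.ATLAS.TW
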