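/-
S25 package A3 (helper228): ideal data on a two-chart and the sub-bundles `𝔞 • N`.
-/
import Fermat.Agent.S25.ATLAS.TW.Sub

set_option autoImplicit false

universe u

namespace Fermat.Agent.S25.ATLAS.TW

open Fermat.Agent.S25

/-! ### Single-chart lemmas -/

section SingleChart

variable {B B' : Type*} [CommRing B] [CommRing B'] (r : B →+* B') (F : B) (G : B')
  {M M' : Type*} [AddCommGroup M] [Module B M] [AddCommGroup M'] [Module B' M']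
  (ι : M →+ M')

theorem smul_top_mem (hι : ∀ (b : B) (m : M), ι (b • m) = r b • ι m) (I : Ideal B) (n : M)
    (hn : n ∈ (I • ⊤ : Submodule B M)) : ι n ∈ (I.map r • ⊤ : Submodule B' M') := by
  refine Submodule.smul_induction_on hn (fun a ha n _ => ?_) (fun x y hx hy => ?_)
  · rw [hι]
    exact Submodule.smul_mem_smul (Ideal.mem_map_of_mem r ha) trivial
  · rw [map_add]
    exact add_mem hx hy

theorem smul_top_surj (hFG : r F * G = 1) (hι : ∀ (b : B) (m : M), ι (b • m) = r b • ι m)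
    (hsurj : ∀ y : M', ∃ (n : M) (m : ℕ), y = G ^ m • ι n)
    (I : Ideal B) (y : M') (hy : y ∈ (I.map r • ⊤ : Submodule B' M')) :
    ∃ n ∈ (I • ⊤ : Submodule B M), ∃ m : ℕ, y = G ^ m • ι n := by
  have hFGm : ∀ m : ℕ, G ^ m * r F ^ m = 1 := fun m => by rw [← mul_pow, mul_comm, hFG, one_pow]
  have hadd : ∀ y y' : M', (∃ n ∈ (I • ⊤ : Submodule B M), ∃ m : ℕ, y = G ^ m • ι n) →
      (∃ n ∈ (I • ⊤ : Submodule B M), ∃ m : ℕ, y' = G ^ m • ι n) →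
      ∃ n ∈ (I • ⊤ : Submodule B M), ∃ m : ℕ, y + y' = G ^ m • ι n := by
    rintro _ _ ⟨n, hn, m, rfl⟩ ⟨n', hn', m', rfl⟩
    refine ⟨F ^ m' • n + F ^ m • n', add_mem (Submodule.smul_mem _ _ hn)
      (Submodule.smul_mem _ _ hn'), m + m', ?_⟩
    rw [map_add, hι, hι, smul_add, ← mul_smul, ← mul_smul, map_pow, map_pow]
    congr 1
    · rw [pow_add, mul_assoc, hFGm, mul_one]
    · rw [pow_add, mul_comm (G ^ m), mul_assoc, hFGm, mul_one]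
  have hbase : ∀ c ∈ I.map r, ∀ y' : M',
      ∃ n ∈ (I • ⊤ : Submodule B M), ∃ m : ℕ, c • y' = G ^ m • ι n := by
    intro c hc
    refine Submodule.span_induction (p := fun c _ => ∀ y' : M',
      ∃ n ∈ (I • ⊤ : Submodule B M), ∃ m : ℕ, c • y' = G ^ m • ι n) ?_ ?_ ?_ ?_ hc
    · rintro _ ⟨a, ha, rfl⟩ y'
      obtain ⟨n', m, rfl⟩ := hsurj y'
      exact ⟨a • n', Submodule.smul_mem_smul ha trivial, m, by rw [hι, smul_comm]⟩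
    · intro y'
      exact ⟨0, zero_mem _, 0, by simp⟩
    · intro c c' _ _ hc hc' y'
      rw [add_smul]
      exact hadd _ _ (hc y') (hc' y')
    · intro b c _ hc y'
      rw [smul_eq_mul, mul_comm, mul_smul]
      exact hc (b • y')
  refine Submodule.smul_induction_on hy (fun c hc y' _ => hbase c hc y') (fun y y' h h' => ?_)
  exact hadd _ _ h h'

end SingleChart

variable {R : Type u} [CommRing R]

/-- An ideal datum on a two-chart: ideals of the two chart rings with the same extension to the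
overlap.  Geometrically: a quasi-coherent ideal sheaf. -/
@[ext] structure IdealDatum (𝔹 : TwoChart R) where
  a₁ : Ideal 𝔹.B₁
  a₂ : Ideal 𝔹.B₂
  compat : a₁.map 𝔹.r₁ = a₂.map 𝔹.r₂

namespace IdealDatum

variable {𝔹 : TwoChart R} (𝔞 𝔟 : IdealDatum 𝔹)

/-- The ideal on the overlap. -/
def a₁₂ : Ideal 𝔹.B₁₂ := 𝔞.a₁.map 𝔹.r₁

theorem a₁₂_eq₁ : 𝔞.a₁₂ = 𝔞.a₁.map 𝔹.r₁ := rfl

theorem a₁₂_eq₂ : 𝔞.a₁₂ = 𝔞.a₂.map 𝔹.r₂ := 𝔞.compat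

instance : One (IdealDatum 𝔹) := ⟨⟨⊤, ⊤, by rw [Ideal.map_top, Ideal.map_top]⟩⟩

instance : Mul (IdealDatum 𝔹) :=
  ⟨fun 𝔞 𝔟 => ⟨𝔞.a₁ * 𝔟.a₁, 𝔞.a₂ * 𝔟.a₂, by
    rw [Ideal.map_mul, Ideal.map_mul, 𝔞.compat, 𝔟.compat]⟩⟩

@[simp] theorem one_a₁ : (1 : IdealDatum 𝔹).a₁ = ⊤ := rfl
@[simp] theorem one_a₂ : (1 : IdealDatum 𝔹).a₂ = ⊤ := rfl
@[simp] theorem mul_a₁ : (𝔞 * 𝔟).a₁ = 𝔞.a₁ * 𝔟.a₁ := rfl
@[simp] theorem mul_a₂ : (𝔞 * 𝔟).a₂ = 𝔞.a₂ * 𝔟.a₂ := rfl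

instance : CommMonoid (IdealDatum 𝔹) where
  mul_assoc a b c := by ext1 <;> simp [mul_assoc]
  one_mul a := by ext1 <;> simp
  mul_one a := by ext1 <;> simp
  mul_comm a b := by ext1 <;> simp [mul_comm]

theorem map_comap_r₂ (J : Ideal 𝔹.B₁₂) : (J.comap 𝔹.r₂).map 𝔹.r₂ = J := by
  refine le_antisymm Ideal.map_comap_le (fun y hy => ?_)
  obtain ⟨a, n, rfl⟩ := 𝔹.surj₂ y
  have ha : a ∈ J.comap 𝔹.r₂ := by
    rw [Ideal.mem_comap]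
    have h := J.mul_mem_right (𝔹.r₂ 𝔹.g ^ n) hy
    rwa [mul_assoc, SubGlued.fg_pow, mul_one] at h
  exact Ideal.mul_mem_right _ _ (Ideal.mem_map_of_mem _ ha)

theorem map_comap_r₁ (J : Ideal 𝔹.B₁₂) : (J.comap 𝔹.r₁).map 𝔹.r₁ = J := by
  refine le_antisymm Ideal.map_comap_le (fun y hy => ?_)
  obtain ⟨a, n, rfl⟩ := 𝔹.surj₁ y
  have ha : a ∈ J.comap 𝔹.r₁ := by
    rw [Ideal.mem_comap]
    have h := J.mul_mem_right (𝔹.r₁ 𝔹.f ^ n) hy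
    rwa [mul_assoc, SubGlued.gf_pow, mul_one] at h
  exact Ideal.mul_mem_right _ _ (Ideal.mem_map_of_mem _ ha)

/-- The ideal datum of an ideal of the first chart (closure of a closed subscheme of `U₁`). -/
def ofFst (I : Ideal 𝔹.B₁) : IdealDatum 𝔹 :=
  ⟨I, (I.map 𝔹.r₁).comap 𝔹.r₂, (map_comap_r₂ _).symm⟩

/-- The ideal datum of an ideal of the second chart. -/
def ofSnd (I : Ideal 𝔹.B₂) : IdealDatum 𝔹 :=
  ⟨(I.map 𝔹.r₂).comap 𝔹.r₁, I, map_comap_r₁ _⟩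

@[simp] theorem ofFst_a₁ (I : Ideal 𝔹.B₁) : (ofFst I : IdealDatum 𝔹).a₁ = I := rfl
@[simp] theorem ofSnd_a₂ (I : Ideal 𝔹.B₂) : (ofSnd I : IdealDatum 𝔹).a₂ = I := rfl
theorem ofFst_a₂ (I : Ideal 𝔹.B₁) :
    (ofFst I : IdealDatum 𝔹).a₂ = (I.map 𝔹.r₁).comap 𝔹.r₂ := rfl
theorem ofSnd_a₁ (I : Ideal 𝔹.B₂) :
    (ofSnd I : IdealDatum 𝔹).a₁ = (I.map 𝔹.r₂).comap 𝔹.r₁ := rfl

/-- The sub-glued-module `𝔞 • N` of `N`. -/
def sub (N : GluedModule 𝔹) : SubGlued N where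
  P₁ := 𝔞.a₁ • ⊤
  P₂ := 𝔞.a₂ • ⊤
  P₁₂ := 𝔞.a₁₂ • ⊤
  ι₁_mem n hn := smul_top_mem (𝔹.r₁ : 𝔹.B₁ →+* 𝔹.B₁₂) (N.ι₁ : N.N₁ →+ N.N₁₂) N.ι₁_smul _ n hn
  ι₂_mem n hn := by
    rw [a₁₂_eq₂]
    exact smul_top_mem (𝔹.r₂ : 𝔹.B₂ →+* 𝔹.B₁₂) (N.ι₂ : N.N₂ →+ N.N₁₂) N.ι₂_smul _ n hn
  surj₁ y hy :=
    smul_top_surj (𝔹.r₁ : 𝔹.B₁ →+* 𝔹.B₁₂) 𝔹.f (𝔹.r₂ 𝔹.g) (N.ι₁ : N.N₁ →+ N.N₁₂) 𝔹.fg N.ι₁_smul
      N.surj₁ _ y hy
  surj₂ y hy := by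
    rw [a₁₂_eq₂] at hy
    exact smul_top_surj (𝔹.r₂ : 𝔹.B₂ →+* 𝔹.B₁₂) 𝔹.g (𝔹.r₁ 𝔹.f) (N.ι₂ : N.N₂ →+ N.N₁₂) 𝔹.gf
      N.ι₂_smul N.surj₂ _ y hy

/-- The glued module `𝔞 • N` (for `N` a line bundle: `N ⊗ O(-D)`). -/
@[reducible] def smul (N : GluedModule 𝔹) : GluedModule 𝔹 := (𝔞.sub N).toGlued

/-- The glued module `N / 𝔞 N`. -/
@[reducible] def quot (N : GluedModule 𝔹) : GluedModule 𝔹 := (𝔞.sub N).quot

end IdealDatum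

end Fermat.Agent.S25.ATLAS.TW
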