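/-
S25 package ATLAS, sub-package TW (sub-captain helper228): definitions used by the plan.
No sorry.  See BOARD_S25_ATLAS_TW.md (origin/helper228).

* `IdealDatum.ofOverlap J` : the ideal datum `(r₁⁻¹ J, r₂⁻¹ J)` of an ideal of the overlap ring;
* `ptHom 𝒞 R x`, `ptDatum 𝒞 R x` : the constant section `x × Spec R` of `U₁ ∩ U₂` attached to a
  `k`-point `x : A₁₂ →ₐ[k] k`, and its ideal datum on `𝒞.chart R`;
* `n₀ 𝒞`, `Idx 𝒞`, `divDatum 𝒞 R l`, `bundle 𝒞 R δ = O(N·D∞ - x₁ - … - x_m)` on `𝒞.chart R`;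
* `TwRel 𝒞 P R L M` : "`M ≅ L ⊗ P_R`", the twist relation of the family.
-/
import Fermat.Agent.S25.ATLAS.Defs
import Fermat.Agent.S25.ATLAS.TW.Ideal
import Fermat.Agent.S25.ATLAS.TW.Dep.TensorIso

set_option autoImplicit false

universe u

namespace Fermat.Agent.S25.ATLAS.TW

open scoped TensorProduct

open GluedModule

section Overlap

variable {R : Type u} [CommRing R] {𝔹 : TwoChart R}

/-- The ideal datum of an ideal of the overlap ring (a closed subscheme of `U₁ ∩ U₂` which is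
closed in the whole curve). -/
def IdealDatum.ofOverlap (J : Ideal 𝔹.B₁₂) : IdealDatum 𝔹 :=
  ⟨J.comap 𝔹.r₁, J.comap 𝔹.r₂, by rw [IdealDatum.map_comap_r₁, IdealDatum.map_comap_r₂]⟩

@[simp] theorem IdealDatum.ofOverlap_a₁ (J : Ideal 𝔹.B₁₂) :
    (IdealDatum.ofOverlap J : IdealDatum 𝔹).a₁ = J.comap 𝔹.r₁ := rfl

@[simp] theorem IdealDatum.ofOverlap_a₂ (J : Ideal 𝔹.B₁₂) :
    (IdealDatum.ofOverlap J : IdealDatum 𝔹).a₂ = J.comap 𝔹.r₂ := rfl

theorem IdealDatum.ofOverlap_eq_ofFst (J : Ideal 𝔹.B₁₂) :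
    (IdealDatum.ofOverlap J : IdealDatum 𝔹) = IdealDatum.ofFst (J.comap 𝔹.r₁) := by
  ext1
  · rfl
  · rw [IdealDatum.ofFst_a₂, IdealDatum.map_comap_r₁]; rfl

theorem IdealDatum.ofOverlap_eq_ofSnd (J : Ideal 𝔹.B₁₂) :
    (IdealDatum.ofOverlap J : IdealDatum 𝔹) = IdealDatum.ofSnd (J.comap 𝔹.r₂) := by
  ext1
  · rw [IdealDatum.ofSnd_a₁, IdealDatum.map_comap_r₂]; rfl
  · rfl

end Overlap

variable {k : Type u} [Field k] (𝒞 : CurveData k)

section Points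

variable (R : Type u) [CommRing R] [Algebra k R]

/-- The `R`-point of `U₁ ∩ U₂` (of `C ×_k Spec R`) induced by a `k`-point `x`. -/
noncomputable def ptHom (x : 𝒞.A₁₂ →ₐ[k] k) : (𝒞.chart R).B₁₂ →ₐ[R] R :=
  Algebra.TensorProduct.lift (AlgHom.id R R) ((Algebra.ofId k R).comp x)
    (fun _ _ => Commute.all _ _)

/-- The ideal datum of the constant section `x × Spec R`, `x` a `k`-point of `U₁ ∩ U₂`. -/
noncomputable def ptDatum (x : 𝒞.A₁₂ →ₐ[k] k) : IdealDatum (𝒞.chart R) :=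
  IdealDatum.ofOverlap (RingHom.ker (ptHom 𝒞 R x : (𝒞.chart R).B₁₂ →+* R))

/-- The ideal datum of the divisor `x₁ + … + x_m` (constant in the family over `Spec R`). -/
noncomputable def divDatum (l : List (𝒞.A₁₂ →ₐ[k] k)) : IdealDatum (𝒞.chart R) :=
  (l.map (ptDatum 𝒞 R)).prod

/-- The glued module `O(N·D∞ - x₁ - … - x_m)` on `C ×_k Spec R`, `D∞ = div(g)` the divisor at
infinity of the first chart, for `δ = (N, [x₁, …, x_m])`. -/
noncomputable def bundle (δ : ℕ × List (𝒞.A₁₂ →ₐ[k] k)) : GluedModule (𝒞.chart R) :=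
  ((divDatum 𝒞 R δ.2).smul (GluedModule.unit (𝒞.chart R))).twist (δ.1 : ℤ)

end Points

/-- The degree of `D∞`: `dim_k A₂/(g)`. -/
noncomputable def n₀ : ℕ := Module.finrank k (𝒞.A₂ ⧸ Ideal.span {𝒞.g})

/-- The index set of the twist family: `δ = (N, [x₁, …, x_m])` with `N · n₀ - m = genus`, i.e.
`Δ_δ = N·D∞ - x₁ - … - x_m` has degree `genus 𝒞`. -/
def Idx : Type u :=
  {δ : ℕ × List (𝒞.A₁₂ →ₐ[k] k) // δ.1 * n₀ 𝒞 = δ.2.length + genus 𝒞}

/-- "`M ≅ L ⊗ P_R`", `P_R` the base change to `R` of the glued module `P` over `k`. -/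
def TwRel (P : GluedModule (𝒞.chart k)) (R : Type u) [CommRing R] [Algebra k R]
    (L M : GluedModule (𝒞.chart R)) : Prop :=
  ∃ P' : GluedModule (𝒞.chart R), IsBC (𝒞.chartHom (Algebra.ofId k R)) P P' ∧
    Nonempty (M.Iso (T1308.tensor L P'))

end Fermat.Agent.S25.ATLAS.TW
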