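/-
S25 package ATLAS, sub-package TW, LEAF `BCB` (helper9431, TW deputy):
`O(N·D∞ - Σ x_j)` over `κ` is the base change of the same bundle over `k`.

* `BCB.exists_unique_lift` (Mathlib only): flat base change of an ideal — for a flat ring map
  `ψ : B → B'` the extended ideal `I B'` has the universal property of `B' ⊗[B] I`;
* `BCB.isBC_smul_unit` (any two-chart morphism with flat components): `𝔞' • O'` is the base change
  of `𝔞 • O` as soon as `𝔞'_i = 𝔞_i B'_i`;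
* `BCB.ptDatum_a₁_eq`, `BCB.ptDatum_a₂_eq` : the ideals of the constant section `x × Spec R` are
  the extensions of the ideals of `x` in `A₁`, `A₂` (any `k`-algebra `R`);
* the leaf `isBC_bundle` (statement exactly as in `TW/Plan.lean`).
-/
import Fermat.Agent.S25.ATLAS.TW.Defs
import Fermat.Agent.S25.Lib.BaseChangeData

set_option autoImplicit false
set_option linter.style.haveILetI false

universe u

namespace Fermat.Agent.S25.ATLAS.TW.BCB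

open scoped TensorProduct

open GluedModule

section LemmaA

variable {B B' : Type u} [CommRing B] [CommRing B'] (ψ : B →+* B')

/-- (Flat base change of an ideal.)  If `ψ : B → B'` is flat, then the extended ideal `S B'` has
the universal property of `B' ⊗[B] S`. -/
theorem exists_unique_lift (hψ : ψ.Flat) (S : Ideal B) (S' : Ideal B') (hI : S' = S.map ψ)
    (j : ↥S →+ ↥S') (hj : ∀ n, (j n : B') = ψ (n : B))
    (Q : Type u) [AddCommGroup Q] [Module B' Q] (h : ↥S →+ Q)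
    (hh : ∀ (b : B) (n : ↥S), h (b • n) = ψ b • h n) :
    ∃! h' : ↥S' →ₗ[B'] Q, ∀ n, h' (j n) = h n := by
  letI : Algebra B B' := ψ.toAlgebra
  haveI : Module.Flat B B' := hψ
  letI : Module B Q := Module.compHom Q ψ
  haveI : IsScalarTower B B' Q := ⟨fun b b' q => by
    change (ψ b * b') • q = ψ b • (b' • q)
    rw [mul_smul]⟩
  -- `h` as a `B`-linear map
  let h₁ : S →ₗ[B] Q :=
    { toFun := h
      map_add' := h.map_add
      map_smul' := fun b n => by rw [RingHom.id_apply]; exact hh b n }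
  let L : B' ⊗[B] S →ₗ[B'] Q := h₁.liftBaseChange B'
  have hL : ∀ (b' : B') (n : S), L (b' ⊗ₜ[B] n) = b' • h n := fun b' n => by
    simp [L, h₁]
  -- the multiplication map `B' ⊗ S → B'`
  let μ₀ : B' ⊗[B] S →ₗ[B'] B' := ((Algebra.linearMap B B').comp S.subtype).liftBaseChange B'
  have hμ₀ : ∀ (b' : B') (n : S), μ₀ (b' ⊗ₜ[B] n) = b' * ψ (n : B) := fun b' n => by
    simp [μ₀]
    rfl
  have hμ₀_inj : Function.Injective μ₀ := by
    have h1 : Function.Injective (LinearMap.lTensor B' S.subtype) :=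
      Module.Flat.lTensor_preserves_injective_linearMap _ Subtype.val_injective
    have h2 : ∀ t, μ₀ t = TensorProduct.rid B B' (LinearMap.lTensor B' S.subtype t) := by
      intro t
      induction t using TensorProduct.induction_on with
      | zero => simp
      | tmul b' n =>
        rw [hμ₀, LinearMap.lTensor_tmul, TensorProduct.rid_tmul, Submodule.subtype_apply,
          Algebra.smul_def, mul_comm]
        rfl
      | add x y hx hy => simp only [map_add, hx, hy]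
    intro x y hxy
    rw [h2, h2] at hxy
    exact h1 ((TensorProduct.rid B B').injective hxy)
  have hμ₀_mem : ∀ t, μ₀ t ∈ S' := by
    intro t
    induction t using TensorProduct.induction_on with
    | zero => rw [map_zero]; exact S'.zero_mem
    | tmul b' n =>
      rw [hμ₀, hI]
      exact Ideal.mul_mem_left _ _ (Ideal.mem_map_of_mem ψ n.2)
    | add x y hx hy => rw [map_add]; exact S'.add_mem hx hy
  let μ : B' ⊗[B] S →ₗ[B'] S' := μ₀.codRestrict S' hμ₀_mem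
  have hμ_inj : Function.Injective μ := fun x y hxy => hμ₀_inj (congrArg Subtype.val hxy)
  have hμ_surj : Function.Surjective μ := by
    rintro ⟨y, hy⟩
    have key : ∀ y ∈ S.map ψ, ∃ t, μ₀ t = y := by
      intro y hy
      refine Submodule.span_induction (p := fun y _ => ∃ t, μ₀ t = y) ?_ ?_ ?_ ?_ hy
      · rintro _ ⟨a, ha, rfl⟩
        exact ⟨1 ⊗ₜ[B] ⟨a, ha⟩, by rw [hμ₀, one_mul]⟩
      · exact ⟨0, map_zero _⟩
      · rintro _ _ _ _ ⟨t, rfl⟩ ⟨t', rfl⟩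
        exact ⟨t + t', map_add _ _ _⟩
      · rintro c _ _ ⟨t, rfl⟩
        exact ⟨c • t, map_smul _ _ _⟩
    obtain ⟨t, ht⟩ := key y (hI ▸ hy)
    exact ⟨t, Subtype.ext ht⟩
  let E : B' ⊗[B] S ≃ₗ[B'] S' := LinearEquiv.ofBijective μ ⟨hμ_inj, hμ_surj⟩
  have hE : ∀ n : S, E (1 ⊗ₜ[B] n) = j n := by
    intro n
    apply Subtype.ext
    change μ₀ (1 ⊗ₜ[B] n) = _
    rw [hμ₀, one_mul, hj]
  refine ⟨L.comp E.symm.toLinearMap, ?_, ?_⟩
  · intro n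
    change L (E.symm (j n)) = h n
    rw [← hE, LinearEquiv.symm_apply_apply, hL, one_smul]
  · intro h'' hh''
    have : h''.comp E.toLinearMap = L := by
      apply TensorProduct.AlgebraTensorModule.ext
      intro b' n
      rw [LinearMap.comp_apply, hL]
      have : b' ⊗ₜ[B] n = b' • ((1 : B') ⊗ₜ[B] n) := by
        rw [TensorProduct.smul_tmul', smul_eq_mul, mul_one]
      rw [this, LinearEquiv.coe_coe, map_smul, map_smul, hE, hh'']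
    rw [← this]
    ext x
    simp

end LemmaA

section TwoChart

variable {R R' : Type u} [CommRing R] [CommRing R'] {φ : R →+* R'}
  {𝔹 : TwoChart R} {𝔹' : TwoChart R'} (Ψ : TwoChart.Hom φ 𝔹 𝔹')

theorem smul_top_eq {B : Type*} [CommRing B] (I : Ideal B) :
    (I • (⊤ : Submodule B B) : Submodule B B) = I := by
  rw [smul_eq_mul, Ideal.mul_top]

theorem map_a₁₂ (𝔞 : IdealDatum 𝔹) (𝔞' : IdealDatum 𝔹')
    (h₁ : 𝔞'.a₁ = 𝔞.a₁.map Ψ.ψ₁) : 𝔞'.a₁₂ = 𝔞.a₁₂.map Ψ.ψ₁₂ := by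
  change Ideal.map (𝔹'.r₁ : 𝔹'.B₁ →+* 𝔹'.B₁₂) 𝔞'.a₁ =
    Ideal.map Ψ.ψ₁₂ (Ideal.map (𝔹.r₁ : 𝔹.B₁ →+* 𝔹.B₁₂) 𝔞.a₁)
  rw [h₁, Ideal.map_map, Ideal.map_map]
  congr 1
  ext b
  exact (Ψ.comm₁ b).symm

/-- `𝔞' • O'` is the base change of `𝔞 • O` along a morphism of two-charts with flat components,
as soon as `𝔞'_i = 𝔞_i B'_i`. -/
theorem isBC_smul_unit (hψ₁ : Ψ.ψ₁.Flat) (hψ₂ : Ψ.ψ₂.Flat) (𝔞 : IdealDatum 𝔹)
    (𝔞' : IdealDatum 𝔹') (h₁ : 𝔞'.a₁ = 𝔞.a₁.map Ψ.ψ₁) (h₂ : 𝔞'.a₂ = 𝔞.a₂.map Ψ.ψ₂) :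
    IsBC Ψ (𝔞.smul (GluedModule.unit 𝔹)) (𝔞'.smul (GluedModule.unit 𝔹')) := by
  have h₁₂ := map_a₁₂ Ψ 𝔞 𝔞' h₁
  have e₁ : (𝔞'.a₁ • (⊤ : Submodule 𝔹'.B₁ 𝔹'.B₁) : Submodule 𝔹'.B₁ 𝔹'.B₁) =
      Ideal.map Ψ.ψ₁ (𝔞.a₁ • (⊤ : Submodule 𝔹.B₁ 𝔹.B₁) : Submodule 𝔹.B₁ 𝔹.B₁) := by
    rw [smul_top_eq, smul_top_eq, h₁]
  have e₂ : (𝔞'.a₂ • (⊤ : Submodule 𝔹'.B₂ 𝔹'.B₂) : Submodule 𝔹'.B₂ 𝔹'.B₂) =
      Ideal.map Ψ.ψ₂ (𝔞.a₂ • (⊤ : Submodule 𝔹.B₂ 𝔹.B₂) : Submodule 𝔹.B₂ 𝔹.B₂) := by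
    rw [smul_top_eq, smul_top_eq, h₂]
  have e₁₂ : (𝔞'.a₁₂ • (⊤ : Submodule 𝔹'.B₁₂ 𝔹'.B₁₂) : Submodule 𝔹'.B₁₂ 𝔹'.B₁₂) =
      Ideal.map Ψ.ψ₁₂ (𝔞.a₁₂ • (⊤ : Submodule 𝔹.B₁₂ 𝔹.B₁₂) : Submodule 𝔹.B₁₂ 𝔹.B₁₂) := by
    rw [smul_top_eq, smul_top_eq, h₁₂]
  have m₁ : ∀ b ∈ (𝔞.a₁ • (⊤ : Submodule 𝔹.B₁ 𝔹.B₁) : Submodule 𝔹.B₁ 𝔹.B₁),
      Ψ.ψ₁ b ∈ (𝔞'.a₁ • (⊤ : Submodule 𝔹'.B₁ 𝔹'.B₁) : Submodule 𝔹'.B₁ 𝔹'.B₁) := fun b hb => by
    rw [e₁]; exact Ideal.mem_map_of_mem _ hb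
  have m₂ : ∀ b ∈ (𝔞.a₂ • (⊤ : Submodule 𝔹.B₂ 𝔹.B₂) : Submodule 𝔹.B₂ 𝔹.B₂),
      Ψ.ψ₂ b ∈ (𝔞'.a₂ • (⊤ : Submodule 𝔹'.B₂ 𝔹'.B₂) : Submodule 𝔹'.B₂ 𝔹'.B₂) := fun b hb => by
    rw [e₂]; exact Ideal.mem_map_of_mem _ hb
  have m₁₂ : ∀ b ∈ (𝔞.a₁₂ • (⊤ : Submodule 𝔹.B₁₂ 𝔹.B₁₂) : Submodule 𝔹.B₁₂ 𝔹.B₁₂),
      Ψ.ψ₁₂ b ∈ (𝔞'.a₁₂ • (⊤ : Submodule 𝔹'.B₁₂ 𝔹'.B₁₂) : Submodule 𝔹'.B₁₂ 𝔹'.B₁₂) :=
    fun b hb => by
      rw [e₁₂]; exact Ideal.mem_map_of_mem _ hb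
  let j₁ : (𝔞.smul (GluedModule.unit 𝔹)).N₁ →+ (𝔞'.smul (GluedModule.unit 𝔹')).N₁ :=
    { toFun := fun n => ⟨Ψ.ψ₁ n.1, m₁ n.1 n.2⟩
      map_zero' := Subtype.ext (map_zero Ψ.ψ₁)
      map_add' := fun x y => Subtype.ext (map_add Ψ.ψ₁ x.1 y.1) }
  let j₂ : (𝔞.smul (GluedModule.unit 𝔹)).N₂ →+ (𝔞'.smul (GluedModule.unit 𝔹')).N₂ :=
    { toFun := fun n => ⟨Ψ.ψ₂ n.1, m₂ n.1 n.2⟩
      map_zero' := Subtype.ext (map_zero Ψ.ψ₂)
      map_add' := fun x y => Subtype.ext (map_add Ψ.ψ₂ x.1 y.1) }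
  let j₁₂ : (𝔞.smul (GluedModule.unit 𝔹)).N₁₂ →+ (𝔞'.smul (GluedModule.unit 𝔹')).N₁₂ :=
    { toFun := fun n => ⟨Ψ.ψ₁₂ n.1, m₁₂ n.1 n.2⟩
      map_zero' := Subtype.ext (map_zero Ψ.ψ₁₂)
      map_add' := fun x y => Subtype.ext (map_add Ψ.ψ₁₂ x.1 y.1) }
  exact ⟨{ j₁ := j₁
           j₂ := j₂
           j₁₂ := j₁₂
           j₁_smul := fun b n => Subtype.ext (map_mul Ψ.ψ₁ b n.1)
           j₂_smul := fun b n => Subtype.ext (map_mul Ψ.ψ₂ b n.1)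
           j₁₂_smul := fun b n => Subtype.ext (map_mul Ψ.ψ₁₂ b n.1)
           comm₁ := fun n => Subtype.ext (Ψ.comm₁ n.1)
           comm₂ := fun n => Subtype.ext (Ψ.comm₂ n.1)
           univ₁ := fun Q _ _ h hh =>
             exists_unique_lift Ψ.ψ₁ hψ₁ _ _ e₁ j₁ (fun _ => rfl) Q h hh
           univ₂ := fun Q _ _ h hh =>
             exists_unique_lift Ψ.ψ₂ hψ₂ _ _ e₂ j₂ (fun _ => rfl) Q h hh }⟩

end TwoChart

section Kernel

variable {k : Type u} [Field k] (R : Type u) [CommRing R] [Algebra k R]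
  {A : Type u} [CommRing A] [Algebra k A]

/-- The kernel of the `R`-point `R ⊗ A → R` induced by a `k`-point `y` of `A` is the extension of
`ker y`. -/
theorem ker_lift_eq (y : A →ₐ[k] k) :
    RingHom.ker (Algebra.TensorProduct.lift (AlgHom.id R R) ((Algebra.ofId k R).comp y)
        (fun _ _ => Commute.all _ _) : R ⊗[k] A →ₐ[R] R) =
      (RingHom.ker y).map (Algebra.TensorProduct.includeRight : A →ₐ[k] R ⊗[k] A) := by
  set E : R ⊗[k] A →ₐ[R] R := Algebra.TensorProduct.lift (AlgHom.id R R)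
    ((Algebra.ofId k R).comp y) (fun _ _ => Commute.all _ _) with hE
  set J : Ideal (R ⊗[k] A) :=
    (RingHom.ker y).map (Algebra.TensorProduct.includeRight : A →ₐ[k] R ⊗[k] A) with hJ
  have hEt : ∀ (c : R) (a : A), E (c ⊗ₜ[k] a) = c * algebraMap k R (y a) := fun c a => by
    rw [hE, Algebra.TensorProduct.lift_tmul]
    rfl
  apply le_antisymm
  · have key : ∀ b : R ⊗[k] A, b - E b ⊗ₜ[k] (1 : A) ∈ J := by
      intro b
      induction b using TensorProduct.induction_on with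
      | zero => simp
      | tmul c a =>
        have h1 : c ⊗ₜ[k] a - E (c ⊗ₜ[k] a) ⊗ₜ[k] (1 : A) =
            (c ⊗ₜ[k] (1 : A)) * ((1 : R) ⊗ₜ[k] (a - algebraMap k A (y a))) := by
          rw [hEt, Algebra.TensorProduct.tmul_mul_tmul, mul_one, one_mul, TensorProduct.tmul_sub,
            Algebra.algebraMap_eq_smul_one, Algebra.algebraMap_eq_smul_one, mul_smul_comm, mul_one,
            TensorProduct.smul_tmul]
        rw [h1]
        refine Ideal.mul_mem_left _ _ (Ideal.mem_map_of_mem _ ?_)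
        rw [RingHom.mem_ker, map_sub, AlgHom.commutes, sub_eq_zero]
        rfl
      | add x y hx hy =>
        have : x + y - E (x + y) ⊗ₜ[k] (1 : A) =
            (x - E x ⊗ₜ[k] (1 : A)) + (y - E y ⊗ₜ[k] (1 : A)) := by
          rw [map_add, TensorProduct.add_tmul]; ring
        rw [this]
        exact J.add_mem hx hy
    intro b hb
    have := key b
    rw [RingHom.mem_ker] at hb
    have hb' : E b = 0 := hb
    rwa [hb', TensorProduct.zero_tmul, sub_zero] at this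
  · rw [hJ, Ideal.map_le_iff_le_comap]
    intro a ha
    rw [Ideal.mem_comap, RingHom.mem_ker]
    change E ((1 : R) ⊗ₜ[k] a) = 0
    rw [hEt, show y a = 0 from ha, map_zero, mul_zero]

theorem lift_comp_map {A' : Type u} [CommRing A'] [Algebra k A'] (r : A →ₐ[k] A')
    (x : A' →ₐ[k] k) (b : R ⊗[k] A) :
    (Algebra.TensorProduct.lift (AlgHom.id R R) ((Algebra.ofId k R).comp x)
        (fun _ _ => Commute.all _ _) : R ⊗[k] A' →ₐ[R] R)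
        (Algebra.TensorProduct.map (AlgHom.id R R) r b) =
      (Algebra.TensorProduct.lift (AlgHom.id R R) ((Algebra.ofId k R).comp (x.comp r))
        (fun _ _ => Commute.all _ _) : R ⊗[k] A →ₐ[R] R) b := by
  induction b using TensorProduct.induction_on with
  | zero => simp only [map_zero]
  | tmul c a =>
    rw [Algebra.TensorProduct.map_tmul, Algebra.TensorProduct.lift_tmul,
      Algebra.TensorProduct.lift_tmul]
    rfl
  | add x y hx hy => simp only [map_add, hx, hy]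

theorem map_includeRight_map {R' : Type u} [CommRing R'] [Algebra k R'] (φ : R →ₐ[k] R')
    (I : Ideal A) :
    (I.map (Algebra.TensorProduct.includeRight : A →ₐ[k] R ⊗[k] A)).map
        (Algebra.TensorProduct.map φ (AlgHom.id k A)).toRingHom =
      I.map (Algebra.TensorProduct.includeRight : A →ₐ[k] R' ⊗[k] A) := by
  change Ideal.map (Algebra.TensorProduct.map φ (AlgHom.id k A)).toRingHom
      (Ideal.map ((Algebra.TensorProduct.includeRight : A →ₐ[k] R ⊗[k] A) : A →+* R ⊗[k] A) I) =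
    Ideal.map ((Algebra.TensorProduct.includeRight : A →ₐ[k] R' ⊗[k] A) : A →+* R' ⊗[k] A) I
  rw [Ideal.map_map]
  congr 1
  ext a
  change Algebra.TensorProduct.map φ (AlgHom.id k A) ((1 : R) ⊗ₜ[k] a) = (1 : R') ⊗ₜ[k] a
  rw [Algebra.TensorProduct.map_tmul, map_one, AlgHom.id_apply]

end Kernel

section Curve

variable {k : Type u} [Field k] (𝒞 : CurveData k) (R : Type u) [CommRing R] [Algebra k R]
  {R' : Type u} [CommRing R'] [Algebra k R']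

theorem ptHom_r₁ (x : 𝒞.A₁₂ →ₐ[k] k) (b : (𝒞.chart R).B₁) :
    ptHom 𝒞 R x ((𝒞.chart R).r₁ b) =
      (Algebra.TensorProduct.lift (AlgHom.id R R) ((Algebra.ofId k R).comp (x.comp 𝒞.r₁))
        (fun _ _ => Commute.all _ _) : R ⊗[k] 𝒞.A₁ →ₐ[R] R) b :=
  lift_comp_map R 𝒞.r₁ x b

theorem ptHom_r₂ (x : 𝒞.A₁₂ →ₐ[k] k) (b : (𝒞.chart R).B₂) :
    ptHom 𝒞 R x ((𝒞.chart R).r₂ b) =
      (Algebra.TensorProduct.lift (AlgHom.id R R) ((Algebra.ofId k R).comp (x.comp 𝒞.r₂))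
        (fun _ _ => Commute.all _ _) : R ⊗[k] 𝒞.A₂ →ₐ[R] R) b :=
  lift_comp_map R 𝒞.r₂ x b

/-- The first-chart ideal of the constant section `x × Spec R` is the extension of the ideal of
the `k`-point `x ∘ r₁` of `A₁`. -/
theorem ptDatum_a₁_eq (x : 𝒞.A₁₂ →ₐ[k] k) :
    (ptDatum 𝒞 R x).a₁ = (RingHom.ker (x.comp 𝒞.r₁)).map
      (Algebra.TensorProduct.includeRight : 𝒞.A₁ →ₐ[k] R ⊗[k] 𝒞.A₁) := by
  rw [← ker_lift_eq R (x.comp 𝒞.r₁)]
  ext b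
  change ptHom 𝒞 R x ((𝒞.chart R).r₁ b) = 0 ↔ _
  rw [ptHom_r₁]
  rfl

/-- The second-chart ideal of the constant section `x × Spec R` is the extension of the ideal of
the `k`-point `x ∘ r₂` of `A₂`. -/
theorem ptDatum_a₂_eq (x : 𝒞.A₁₂ →ₐ[k] k) :
    (ptDatum 𝒞 R x).a₂ = (RingHom.ker (x.comp 𝒞.r₂)).map
      (Algebra.TensorProduct.includeRight : 𝒞.A₂ →ₐ[k] R ⊗[k] 𝒞.A₂) := by
  rw [← ker_lift_eq R (x.comp 𝒞.r₂)]
  ext b
  change ptHom 𝒞 R x ((𝒞.chart R).r₂ b) = 0 ↔ _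
  rw [ptHom_r₂]
  rfl

variable {R}

theorem ptDatum_a₁_map (φ : R →ₐ[k] R') (x : 𝒞.A₁₂ →ₐ[k] k) :
    (ptDatum 𝒞 R' x).a₁ = ((ptDatum 𝒞 R x).a₁).map (𝒞.chartHom φ).ψ₁ := by
  rw [ptDatum_a₁_eq, ptDatum_a₁_eq]
  exact (map_includeRight_map R φ _).symm

theorem ptDatum_a₂_map (φ : R →ₐ[k] R') (x : 𝒞.A₁₂ →ₐ[k] k) :
    (ptDatum 𝒞 R' x).a₂ = ((ptDatum 𝒞 R x).a₂).map (𝒞.chartHom φ).ψ₂ := by
  rw [ptDatum_a₂_eq, ptDatum_a₂_eq]
  exact (map_includeRight_map R φ _).symm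

theorem divDatum_a₁_map (φ : R →ₐ[k] R') (l : List (𝒞.A₁₂ →ₐ[k] k)) :
    (divDatum 𝒞 R' l).a₁ = ((divDatum 𝒞 R l).a₁).map (𝒞.chartHom φ).ψ₁ := by
  induction l with
  | nil =>
    change (⊤ : Ideal (𝒞.chart R').B₁) = Ideal.map _ (⊤ : Ideal (𝒞.chart R).B₁)
    rw [Ideal.map_top]
  | cons x l ih =>
    change (ptDatum 𝒞 R' x).a₁ * (divDatum 𝒞 R' l).a₁ =
      Ideal.map _ ((ptDatum 𝒞 R x).a₁ * (divDatum 𝒞 R l).a₁)
    rw [Ideal.map_mul, ← ih, ← ptDatum_a₁_map]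

theorem divDatum_a₂_map (φ : R →ₐ[k] R') (l : List (𝒞.A₁₂ →ₐ[k] k)) :
    (divDatum 𝒞 R' l).a₂ = ((divDatum 𝒞 R l).a₂).map (𝒞.chartHom φ).ψ₂ := by
  induction l with
  | nil =>
    change (⊤ : Ideal (𝒞.chart R').B₂) = Ideal.map _ (⊤ : Ideal (𝒞.chart R).B₂)
    rw [Ideal.map_top]
  | cons x l ih =>
    change (ptDatum 𝒞 R' x).a₂ * (divDatum 𝒞 R' l).a₂ =
      Ideal.map _ ((ptDatum 𝒞 R x).a₂ * (divDatum 𝒞 R l).a₂)
    rw [Ideal.map_mul, ← ih, ← ptDatum_a₂_map]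

theorem flat_chartHom₁ (φ : R →ₐ[k] R') (hφ : (φ : R →+* R').Flat) :
    (𝒞.chartHom φ).ψ₁.Flat := by
  change (Algebra.TensorProduct.map φ (AlgHom.id k 𝒞.A₁)).toRingHom.Flat
  exact RingHom.Flat.tensorProductMap hφ (RingHom.Flat.of_bijective Function.bijective_id)

theorem flat_chartHom₂ (φ : R →ₐ[k] R') (hφ : (φ : R →+* R').Flat) :
    (𝒞.chartHom φ).ψ₂.Flat := by
  change (Algebra.TensorProduct.map φ (AlgHom.id k 𝒞.A₂)).toRingHom.Flat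
  exact RingHom.Flat.tensorProductMap hφ (RingHom.Flat.of_bijective Function.bijective_id)

/-- The bundle `O(N·D∞ - Σ x_j)` commutes with flat base change `R → R'`. -/
theorem isBC_bundle_of_flat (φ : R →ₐ[k] R') (hφ : (φ : R →+* R').Flat)
    (δ : ℕ × List (𝒞.A₁₂ →ₐ[k] k)) :
    IsBC (𝒞.chartHom φ) (bundle 𝒞 R δ) (bundle 𝒞 R' δ) :=
  (isBC_smul_unit (𝒞.chartHom φ) (flat_chartHom₁ 𝒞 φ hφ) (flat_chartHom₂ 𝒞 φ hφ)
    (divDatum 𝒞 R δ.2) (divDatum 𝒞 R' δ.2) (divDatum_a₁_map 𝒞 φ δ.2)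
    (divDatum_a₂_map 𝒞 φ δ.2)).twist _

end Curve

end Fermat.Agent.S25.ATLAS.TW.BCB

namespace Fermat.Agent.S25.ATLAS.TW

open scoped TensorProduct

open GluedModule T1308

variable {k : Type u} [Field k] (𝒞 : CurveData k)

variable [IsAlgClosed k]

section LevelII

variable (κ : Type u) [Field κ] [IsAlgClosed κ] [Algebra k κ]

set_option linter.unusedSectionVars false in
/-- LEAF `BCB`: `O(N·D∞ - Σ x_j)` over `κ` is the base change of the same bundle over `k`. -/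
theorem isBC_bundle (δ : ℕ × List (𝒞.A₁₂ →ₐ[k] k)) :
    IsBC (𝒞.chartHom (Algebra.ofId k κ)) (bundle 𝒞 k δ) (bundle 𝒞 κ δ) :=
  BCB.isBC_bundle_of_flat 𝒞 (Algebra.ofId k κ)
    (RingHom.Flat.of_isField (Field.toIsField k) _) δ

end LevelII

end Fermat.Agent.S25.ATLAS.TW
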