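/-
S25 / ATLAS / TW, leaf `BCT` (helper6530): the tensor product of glued modules commutes with
base change, in the relational form `IsBC`.

Proof: purely by universal properties (no flatness, no line-bundle hypothesis is used):
if `j : M → M'` and `j' : N → N'` are semilinear along `ψ : B → B'` and have the universal
property of `B' ⊗[B] -`, then so does `j ⊗ j' : M ⊗[B] N → M' ⊗[B'] N'`.
-/
import Fermat.Agent.S25.Defs
import Fermat.Agent.S25.ATLAS.TW.Dep.Tensor

set_option autoImplicit false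

universe u

namespace Fermat.Agent.S25.ATLAS.TW.BCT

open scoped TensorProduct

open Fermat.Agent.S25 GluedModule T1308

section Single

variable {B B' : Type u} [CommRing B] [CommRing B'] (ψ : B →+* B')
  {M N : Type u} [AddCommGroup M] [Module B M] [AddCommGroup N] [Module B N]
  {M' N' : Type u} [AddCommGroup M'] [Module B' M'] [AddCommGroup N'] [Module B' N']
  (j : M →+ M') (j' : N →+ N')
  (hj : ∀ (b : B) (m : M), j (b • m) = ψ b • j m)
  (hj' : ∀ (b : B) (n : N), j' (b • n) = ψ b • j' n)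

/-- The universal property of `B' ⊗[B] -` is stable under tensor products. -/
theorem univ_tensor
    (hu : ∀ (Q : Type u) [AddCommGroup Q] [Module B' Q] (h : M →+ Q),
      (∀ (b : B) (m : M), h (b • m) = ψ b • h m) → ∃! h' : M' →ₗ[B'] Q, ∀ m, h' (j m) = h m)
    (hu' : ∀ (Q : Type u) [AddCommGroup Q] [Module B' Q] (h : N →+ Q),
      (∀ (b : B) (n : N), h (b • n) = ψ b • h n) → ∃! h' : N' →ₗ[B'] Q, ∀ n, h' (j' n) = h n)
    (Q : Type u) [AddCommGroup Q] [Module B' Q] (h : M ⊗[B] N →+ Q)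
    (hh : ∀ (b : B) (t : M ⊗[B] N), h (b • t) = ψ b • h t) :
    ∃! h' : M' ⊗[B'] N' →ₗ[B'] Q,
      ∀ t, h' (tensorAddHom ψ j j' (map_add j) (map_add j') hj hj' t) = h t := by
  classical
  -- step 1: for fixed `n`, extend `m ↦ h (m ⊗ n)`
  let hn : N → (M →+ Q) := fun n =>
    AddMonoidHom.mk' (fun m => h (m ⊗ₜ[B] n)) (fun a b => by rw [TensorProduct.add_tmul, map_add])
  have hn_smul : ∀ (n : N) (b : B) (m : M), hn n (b • m) = ψ b • hn n m := by
    intro n b m
    change h ((b • m) ⊗ₜ[B] n) = ψ b • h (m ⊗ₜ[B] n)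
    rw [← TensorProduct.smul_tmul', hh]
  have ex : ∀ n : N, ∃ H : M' →ₗ[B'] Q, ∀ m, H (j m) = h (m ⊗ₜ[B] n) := fun n =>
    (hu Q (hn n) (hn_smul n)).exists
  have uniq : ∀ (n : N) (H₁ H₂ : M' →ₗ[B'] Q), (∀ m, H₁ (j m) = h (m ⊗ₜ[B] n)) →
      (∀ m, H₂ (j m) = h (m ⊗ₜ[B] n)) → H₁ = H₂ := fun n H₁ H₂ h₁ h₂ =>
    (hu Q (hn n) (hn_smul n)).unique h₁ h₂
  choose H hH using ex
  -- step 2: `n ↦ H n` is additive and semilinear
  have H_add : ∀ a b : N, H (a + b) = H a + H b := by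
    intro a b
    apply uniq (a + b) _ _ (hH (a + b))
    intro m
    rw [LinearMap.add_apply, hH, hH, TensorProduct.tmul_add, map_add]
  have H_smul : ∀ (b : B) (n : N), H (b • n) = ψ b • H n := by
    intro b n
    apply uniq (b • n) _ _ (hH (b • n))
    intro m
    rw [LinearMap.smul_apply, hH, ← hh, TensorProduct.smul_tmul', TensorProduct.smul_tmul]
  let G : N →+ (M' →ₗ[B'] Q) := AddMonoidHom.mk' H H_add
  obtain ⟨G', hG', -⟩ := hu' (M' →ₗ[B'] Q) G H_smul
  have hG'' : ∀ n, G' (j' n) = H n := hG'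
  -- step 3: the extension
  refine ⟨TensorProduct.lift G'.flip, ?_, ?_⟩
  · intro t
    induction t using TensorProduct.induction_on with
    | zero => simp
    | tmul m n =>
      rw [tensorAddHom_tmul, TensorProduct.lift.tmul, LinearMap.flip_apply, hG'', hH]
    | add x y hx hy => rw [map_add, map_add, hx, hy, map_add]
  · intro h'' hh''
    apply TensorProduct.ext'
    intro m' n'
    rw [TensorProduct.lift.tmul, LinearMap.flip_apply]
    -- compare the two curried maps `N' → (M' → Q)`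
    have key : (TensorProduct.curry h'').flip = G' := by
      apply (hu' (M' →ₗ[B'] Q) G H_smul).unique _ hG'
      intro n
      apply uniq n _ _ _ (hH n)
      intro m
      rw [LinearMap.flip_apply, TensorProduct.curry_apply]
      have := hh'' (m ⊗ₜ[B] n)
      rwa [tensorAddHom_tmul] at this
    rw [← key, LinearMap.flip_apply, TensorProduct.curry_apply]

end Single

end Fermat.Agent.S25.ATLAS.TW.BCT

namespace Fermat.Agent.S25.ATLAS.TW

open scoped TensorProduct

open GluedModule T1308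

variable {k : Type u} [Field k] (𝒞 : CurveData k)

set_option linter.unusedVariables false in
/-- LEAF `BCT`: the tensor product commutes with base change. -/
theorem isBC_tensor {R R' : Type u} [CommRing R] [Algebra k R] [CommRing R'] [Algebra k R']
    (φ : R →ₐ[k] R') (L P : GluedModule (𝒞.chart R)) (L' P' : GluedModule (𝒞.chart R'))
    (hL : L.IsLineBundle) (hP : P.IsLineBundle)
    (h : IsBC (𝒞.chartHom φ) L L') (h' : IsBC (𝒞.chartHom φ) P P') :
    IsBC (𝒞.chartHom φ) (tensor L P) (tensor L' P') := by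
  obtain ⟨d⟩ := h
  obtain ⟨d'⟩ := h'
  refine ⟨{
    j₁ := tensorAddHom (𝒞.chartHom φ).ψ₁ d.j₁ d'.j₁ (map_add _) (map_add _) d.j₁_smul d'.j₁_smul
    j₂ := tensorAddHom (𝒞.chartHom φ).ψ₂ d.j₂ d'.j₂ (map_add _) (map_add _) d.j₂_smul d'.j₂_smul
    j₁₂ := tensorAddHom (𝒞.chartHom φ).ψ₁₂ d.j₁₂ d'.j₁₂ (map_add _) (map_add _) d.j₁₂_smul
      d'.j₁₂_smul
    j₁_smul := tensorAddHom_smul _ _ _ _ _ _ _
    j₂_smul := tensorAddHom_smul _ _ _ _ _ _ _
    j₁₂_smul := tensorAddHom_smul _ _ _ _ _ _ _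
    comm₁ := ?_
    comm₂ := ?_
    univ₁ := ?_
    univ₂ := ?_ }⟩
  · intro t
    induction t using TensorProduct.induction_on with
    | zero => simp
    | tmul l p =>
      change tensorAddHom (𝒞.chartHom φ).ψ₁₂ d.j₁₂ d'.j₁₂ _ _ _ _ (L.ι₁ l ⊗ₜ P.ι₁ p) =
        tensorι₁ L' P' (d.j₁ l ⊗ₜ d'.j₁ p)
      rw [tensorAddHom_tmul, tensorι₁_tmul, d.comm₁, d'.comm₁]
    | add x y hx hy => rw [map_add, map_add, hx, hy, map_add, map_add]
  · intro t
    induction t using TensorProduct.induction_on with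
    | zero => simp
    | tmul l p =>
      change tensorAddHom (𝒞.chartHom φ).ψ₁₂ d.j₁₂ d'.j₁₂ _ _ _ _ (L.ι₂ l ⊗ₜ P.ι₂ p) =
        tensorι₂ L' P' (d.j₂ l ⊗ₜ d'.j₂ p)
      rw [tensorAddHom_tmul, tensorι₂_tmul, d.comm₂, d'.comm₂]
    | add x y hx hy => rw [map_add, map_add, hx, hy, map_add, map_add]
  · intro Q _ _ hQ hhQ
    exact BCT.univ_tensor (𝒞.chartHom φ).ψ₁ d.j₁ d'.j₁ d.j₁_smul d'.j₁_smul d.univ₁ d'.univ₁ Q hQ hhQ
  · intro Q _ _ hQ hhQ
    exact BCT.univ_tensor (𝒞.chartHom φ).ψ₂ d.j₂ d'.j₂ d.j₂_smul d'.j₂_smul d.univ₂ d'.univ₂ Q hQ hhQ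

end Fermat.Agent.S25.ATLAS.TW
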