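/-
S25 package A3 (helper228): line bundles on a two-chart curve over an algebraically closed field.
Finiteness of cohomology, Euler characteristic of modifications and twists, degree and sections,
effective decomposition, Riemann vanishing.
Imports (verbatim): Core (helper5425), A1 (helper7630), Euler1451 (helper1451),
H190/DedLen (helper190), H2750 (helper2750), H6408/Cech (helper6408).
-/
import Fermat.Agent.S25.ATLAS.TW.Ideal
import Fermat.Agent.S25.ATLAS.TW.Dep.DedLen190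
import Fermat.Agent.S25.ATLAS.TW.Dep.Vanish2750
import Fermat.Agent.S25.ATLAS.TW.Dep.Riemann2750
import Fermat.Agent.S25.ATLAS.TW.Dep.Cech6408

set_option autoImplicit false
set_option linter.style.haveILetI false
set_option linter.unusedSectionVars false

universe u

namespace Fermat.Agent.S25.ATLAS.TW

open Fermat.Agent.S25 H1451
open scoped nonZeroDivisors TensorProduct

/-! ### Pure algebra -/

section Algebra

/-- Nonzero ideals of a Dedekind domain are invertible modules. -/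
theorem invertible_ideal_of_isDedekindDomain {B : Type*} [CommRing B] [IsDedekindDomain B]
    (I : Ideal B) (hI : I ≠ ⊥) : Module.Invertible B I := by
  let K := FractionRing B
  have hne : (I : FractionalIdeal B⁰ K) ≠ 0 := FractionalIdeal.coeIdeal_ne_zero.mpr hI
  let u : (FractionalIdeal B⁰ K)ˣ := Units.mk0 _ hne
  let v : (Submodule B K)ˣ := FractionalIdeal.unitsMulEquivSubmodule u
  have hv : (v : Submodule B K) = Submodule.map (Algebra.linearMap B K) I := rfl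
  have e : I ≃ₗ[B] (v : Submodule B K) :=
    (Submodule.equivMapOfInjective (Algebra.linearMap B K)
      (FaithfulSMul.algebraMap_injective B K) I).trans (LinearEquiv.ofEq _ _ hv.symm)
  exact Module.Invertible.congr e.symm

theorem range_smulMap {B : Type*} [CommRing B] (I : Ideal B) (N : Type*) [AddCommGroup N]
    [Module B N] :
    LinearMap.range ((TensorProduct.lid B N).toLinearMap ∘ₗ (I.subtype.rTensor N)) =
      (I • ⊤ : Submodule B N) := by
  apply le_antisymm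
  · rintro _ ⟨t, rfl⟩
    induction t using TensorProduct.induction_on with
    | zero => simp
    | tmul a n =>
      simp only [LinearMap.coe_comp, LinearEquiv.coe_coe, Function.comp_apply,
        LinearMap.rTensor_tmul, Submodule.subtype_apply, TensorProduct.lid_tmul]
      exact Submodule.smul_mem_smul a.2 trivial
    | add x y hx hy => rw [map_add]; exact add_mem hx hy
  · intro n hn
    refine Submodule.smul_induction_on hn (fun a ha n _ => ?_) (fun x y hx hy => add_mem hx hy)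
    exact ⟨(⟨a, ha⟩ : I) ⊗ₜ n, by simp⟩

/-- `I • N` is invertible if the ideal `I` and the module `N` are. -/
theorem invertible_smul_top {B : Type*} [CommRing B] (I : Ideal B) [Module.Invertible B I]
    (N : Type*) [AddCommGroup N] [Module B N] [Module.Invertible B N] :
    Module.Invertible B (I • ⊤ : Submodule B N) := by
  let μ : I ⊗[B] N →ₗ[B] N := (TensorProduct.lid B N).toLinearMap ∘ₗ (I.subtype.rTensor N)
  have hinj : Function.Injective μ := by
    have h1 : Function.Injective (I.subtype.rTensor N) :=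
      Module.Flat.rTensor_preserves_injective_linearMap _ Subtype.val_injective
    exact (TensorProduct.lid B N).injective.comp h1
  have e : I ⊗[B] N ≃ₗ[B] (I • ⊤ : Submodule B N) :=
    (LinearEquiv.ofInjective μ hinj).trans (LinearEquiv.ofEq _ _ (range_smulMap I N))
  exact Module.Invertible.congr e

/-- Invertible modules over a domain are torsion-free. -/
theorem smul_eq_zero_of_invertible {B : Type*} [CommRing B] [IsDomain B] {N : Type*}
    [AddCommGroup N] [Module B N] [Module.Invertible B N] {b : B} {n : N} (hb : b ≠ 0)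
    (h : b • n = 0) : n = 0 := by
  have hreg : IsSMulRegular N b :=
    Module.Flat.isSMulRegular_of_nonZeroDivisors (mem_nonZeroDivisors_of_ne_zero hb)
  exact hreg (show b • n = b • 0 by rw [h, smul_zero])

/-- Modulo a nonzero ideal of a Dedekind domain of finite type over a field, an invertible module
is free of rank one, and the quotient ring is finite-dimensional. -/
theorem exists_equiv_quot_of_ne_bot (κ : Type*) [Field κ] {B : Type*} [CommRing B]
    [IsDedekindDomain B] [Algebra κ B] [Algebra.FiniteType κ B] (N : Type*) [AddCommGroup N]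
    [Module B N] [Module.Invertible B N] {I : Ideal B} (hI : I ≠ ⊥) :
    Module.Finite κ (B ⧸ I) ∧ Nonempty ((N ⧸ (I • ⊤ : Submodule B N)) ≃ₗ[B] (B ⧸ I)) := by
  have hfin : Module.Finite κ (B ⧸ I) := H190.finite_quotient_of_ne_bot κ hI
  have : IsArtinianRing (B ⧸ I) := (Module.finite_iff_isArtinianRing κ (B ⧸ I)).mp hfin
  exact ⟨hfin, H190.nonempty_quotient_smul_top_equiv (N := N) I⟩

end Algebra

/-! ### General glued-module lemmas -/

section General

variable {R : Type u} [CommRing R] {𝔹 : TwoChart R}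

/-- The morphism `O → N` attached to a global section of `N`. -/
def secHom (N : GluedModule 𝔹) (s : N.H0) : GluedModule.Hom (GluedModule.unit 𝔹) N where
  φ₁ := LinearMap.toSpanSingleton 𝔹.B₁ N.N₁ (s : N.N₁ × N.N₂).1
  φ₂ := LinearMap.toSpanSingleton 𝔹.B₂ N.N₂ (s : N.N₁ × N.N₂).2
  φ₁₂ := LinearMap.toSpanSingleton 𝔹.B₁₂ N.N₁₂ (N.ι₁ (s : N.N₁ × N.N₂).1)
  comm₁ x := by
    change 𝔹.r₁ x • N.ι₁ (s : N.N₁ × N.N₂).1 = N.ι₁ (x • (s : N.N₁ × N.N₂).1)
    rw [N.ι₁_smul]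
  comm₂ x := by
    change 𝔹.r₂ x • N.ι₁ (s : N.N₁ × N.N₂).1 = N.ι₂ (x • (s : N.N₁ × N.N₂).2)
    rw [N.ι₂_smul, (N.mem_H0 _).mp s.2]

theorem range_secHom_φ₁ (N : GluedModule 𝔹) (s : N.H0) :
    LinearMap.range (secHom N s).φ₁ = Submodule.span 𝔹.B₁ {(s : N.N₁ × N.N₂).1} :=
  (LinearMap.span_singleton_eq_range 𝔹.B₁ N.N₁ _).symm

theorem range_secHom_φ₂ (N : GluedModule 𝔹) (s : N.H0) :
    LinearMap.range (secHom N s).φ₂ = Submodule.span 𝔹.B₂ {(s : N.N₁ × N.N₂).2} :=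
  (LinearMap.span_singleton_eq_range 𝔹.B₂ N.N₂ _).symm

/-- A morphism that is bijective on both charts is an isomorphism. -/
noncomputable def isoOfBijective {M N : GluedModule 𝔹} (φ : GluedModule.Hom M N)
    (h₁ : Function.Bijective φ.φ₁) (h₂ : Function.Bijective φ.φ₂) : GluedModule.Iso M N where
  e₁ := LinearEquiv.ofBijective φ.φ₁ h₁
  e₂ := LinearEquiv.ofBijective φ.φ₂ h₂
  e₁₂ := LinearEquiv.ofBijective φ.φ₁₂
    ⟨(shortExact_coker φ h₁.injective h₂.injective).inj₁₂, fun y => by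
      obtain ⟨n, m, rfl⟩ := N.surj₁ y
      obtain ⟨n', rfl⟩ := h₁.surjective n
      exact ⟨𝔹.r₂ 𝔹.g ^ m • M.ι₁ n', by rw [map_smul, φ.comm₁]⟩⟩
  comm₁ := φ.comm₁
  comm₂ := φ.comm₂

end General

section FieldGeneral

variable {κ : Type u} [Field κ] {𝔹 : TwoChart κ} {N N' : GluedModule 𝔹}

theorem gh0_congr (e : GluedModule.Iso N N') : gh0 N = gh0 N' :=
  LinearEquiv.finrank_eq e.H0

theorem gh1_congr (e : GluedModule.Iso N N') : gh1 N = gh1 N' :=
  LinearEquiv.finrank_eq e.H1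

theorem gchi_congr (e : GluedModule.Iso N N') : gchi N = gchi N' := by
  rw [gchi_eq, gchi_eq, gh0_congr e, gh1_congr e]

theorem finCoh_congr (e : GluedModule.Iso N N') (h : FinCoh N) : FinCoh N' := by
  rw [finCoh_iff] at h ⊢
  haveI := h.1
  haveI := h.2
  exact ⟨Module.Finite.equiv e.H0, Module.Finite.equiv e.H1⟩

/-- Additivity of `χ` along an injective morphism with cokernel of finite cohomology. -/
theorem gchi_eq_add_coker {M : GluedModule 𝔹} (φ : GluedModule.Hom M N)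
    (h₁ : Function.Injective φ.φ₁) (h₂ : Function.Injective φ.φ₂) (hM : FinCoh M)
    (hT : FinCoh (coker φ)) : gchi N = gchi M + gchi (coker φ) :=
  (gluedSES (shortExact_coker φ h₁ h₂)).gchi_eq hM hT

/-- The constant global sections of `O`. -/
def constSec (𝔹 : TwoChart κ) : κ →ₗ[κ] (GluedModule.unit 𝔹).H0 where
  toFun c := ⟨(algebraMap κ 𝔹.B₁ c, algebraMap κ 𝔹.B₂ c), by
    rw [GluedModule.mem_H0]
    change 𝔹.r₁ (algebraMap κ 𝔹.B₁ c) = 𝔹.r₂ (algebraMap κ 𝔹.B₂ c)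
    rw [AlgHom.commutes, AlgHom.commutes]⟩
  map_add' x y := by
    apply Subtype.ext
    simp only [map_add]
    rfl
  map_smul' c x := by
    apply Subtype.ext
    apply Prod.ext
    · change algebraMap κ 𝔹.B₁ (c • x) = c • algebraMap κ 𝔹.B₁ x
      rw [smul_eq_mul, map_mul, Algebra.smul_def]
    · change algebraMap κ 𝔹.B₂ (c • x) = c • algebraMap κ 𝔹.B₂ x
      rw [smul_eq_mul, map_mul, Algebra.smul_def]

end FieldGeneral

variable {κ : Type u} [Field κ] [IsAlgClosed κ]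

/-- Hypotheses on a two-chart over an algebraically closed field `κ` that make it "a smooth
projective curve with a finite map `f` to `P¹`".  Satisfied by `𝒞.chart κ` (see `A3/Inst.lean`). -/
structure CurveChartHyp (𝔹 : TwoChart κ) : Prop where
  ded₁ : IsDedekindDomain 𝔹.B₁
  ded₂ : IsDedekindDomain 𝔹.B₂
  nf₁ : ¬ IsField 𝔹.B₁
  nf₂ : ¬ IsField 𝔹.B₂
  ft₁ : Algebra.FiniteType κ 𝔹.B₁
  ft₂ : Algebra.FiniteType κ 𝔹.B₂
  inj₁ : Function.Injective 𝔹.r₁
  inj₂ : Function.Injective 𝔹.r₂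
  fin₁ : Module.Finite (Algebra.adjoin κ ({𝔹.f} : Set 𝔹.B₁)) 𝔹.B₁
  glob : ∀ (a₁ : 𝔹.B₁) (a₂ : 𝔹.B₂), 𝔹.r₁ a₁ = 𝔹.r₂ a₂ → ∃ c : κ, a₁ = algebraMap κ 𝔹.B₁ c

namespace CurveChartHyp

variable {𝔹 : TwoChart κ} (H : CurveChartHyp 𝔹)
include H

theorem nontrivial₁₂ : Nontrivial 𝔹.B₁₂ := by
  haveI := H.ded₁
  exact ⟨⟨𝔹.r₁ 1, 𝔹.r₁ 0, fun h => one_ne_zero (H.inj₁ h)⟩⟩

theorem f_ne_zero : 𝔹.f ≠ 0 := by
  haveI := H.nontrivial₁₂
  intro h
  have h1 := 𝔹.fg
  rw [h, map_zero, zero_mul] at h1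
  exact zero_ne_one h1

theorem g_ne_zero : 𝔹.g ≠ 0 := by
  haveI := H.nontrivial₁₂
  intro h
  have h1 := 𝔹.fg
  rw [h, map_zero, mul_zero] at h1
  exact zero_ne_one h1

variable {N : GluedModule 𝔹}

theorem ι₁_injective (hN : N.IsLineBundle) : Function.Injective N.ι₁ := by
  haveI := H.ded₁
  haveI := hN.inv₁
  rw [injective_iff_map_eq_zero]
  intro n hn
  obtain ⟨m, hm⟩ := N.ker₁ n hn
  exact smul_eq_zero_of_invertible (pow_ne_zero m H.f_ne_zero) hm

theorem ι₂_injective (hN : N.IsLineBundle) : Function.Injective N.ι₂ := by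
  haveI := H.ded₂
  haveI := hN.inv₂
  rw [injective_iff_map_eq_zero]
  intro n hn
  obtain ⟨m, hm⟩ := N.ker₂ n hn
  exact smul_eq_zero_of_invertible (pow_ne_zero m H.g_ne_zero) hm

/-- (F): `H¹` of a line bundle is finite-dimensional. -/
theorem finite_H1 (hN : N.IsLineBundle) : Module.Finite κ N.H1 := by
  classical
  haveI := hN.inv₁
  haveI := H.fin₁
  have hfin : Module.Finite (Algebra.adjoin κ ({𝔹.f} : Set 𝔹.B₁)) N.N₁ :=
    Module.Finite.trans 𝔹.B₁ N.N₁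
  obtain ⟨s, hs⟩ := (Module.Finite.fg_top :
    (⊤ : Submodule (Algebra.adjoin κ ({𝔹.f} : Set 𝔹.B₁)) N.N₁).FG)
  refine H6408.H1_finite_of_adjoin N ⟨s, fun n => ?_⟩
  have hn : n ∈ Submodule.span (Algebra.adjoin κ ({𝔹.f} : Set 𝔹.B₁)) (s : Set N.N₁) := by
    rw [hs]; trivial
  obtain ⟨c, -, hc⟩ := Submodule.mem_span_finset.mp hn
  exact ⟨c, hc.symm⟩

theorem constSec_bijective : Function.Bijective (constSec 𝔹) := by
  haveI := H.ded₁
  haveI := H.ded₂
  constructor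
  · intro c c' h
    have h1 : algebraMap κ 𝔹.B₁ c = algebraMap κ 𝔹.B₁ c' := congrArg (fun z => z.1.1) h
    exact (algebraMap κ 𝔹.B₁).injective h1
  · rintro ⟨⟨a₁, a₂⟩, ha⟩
    rw [GluedModule.mem_H0] at ha
    have ha' : 𝔹.r₁ a₁ = 𝔹.r₂ a₂ := ha
    obtain ⟨c, rfl⟩ := H.glob a₁ a₂ ha'
    refine ⟨c, Subtype.ext (Prod.ext rfl ?_)⟩
    apply H.inj₂
    change 𝔹.r₂ (algebraMap κ 𝔹.B₂ c) = 𝔹.r₂ a₂
    rw [← ha', AlgHom.commutes, AlgHom.commutes]

theorem finite_H0_unit : Module.Finite κ (GluedModule.unit 𝔹).H0 :=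
  Module.Finite.equiv (LinearEquiv.ofBijective (constSec 𝔹) H.constSec_bijective)

theorem gh0_unit : gh0 (GluedModule.unit 𝔹) = 1 := by
  rw [gh0_eq, ← LinearEquiv.finrank_eq (LinearEquiv.ofBijective (constSec 𝔹) H.constSec_bijective),
    Module.finrank_self]

theorem finCoh_unit : FinCoh (GluedModule.unit 𝔹) :=
  (finCoh_iff _).mpr ⟨H.finite_H0_unit, H.finite_H1 (GluedModule.unit_isLineBundle 𝔹)⟩

theorem sec_fst_ne_zero (hN : N.IsLineBundle) {s : N.H0} (hs : s ≠ 0) :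
    (s : N.N₁ × N.N₂).1 ≠ 0 := by
  intro h1
  apply hs
  have hs' := (N.mem_H0 _).mp s.2
  rw [h1, map_zero] at hs'
  have h2 : (s : N.N₁ × N.N₂).2 = 0 := H.ι₂_injective hN (by rw [← hs', map_zero])
  exact Subtype.ext (Prod.ext h1 h2)

theorem sec_snd_ne_zero (hN : N.IsLineBundle) {s : N.H0} (hs : s ≠ 0) :
    (s : N.N₁ × N.N₂).2 ≠ 0 := by
  intro h2
  apply hs
  have hs' := (N.mem_H0 _).mp s.2
  rw [h2, map_zero] at hs'
  have h1 : (s : N.N₁ × N.N₂).1 = 0 := H.ι₁_injective hN (by rw [hs', map_zero])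
  exact Subtype.ext (Prod.ext h1 h2)

theorem secHom_injective₁ (hN : N.IsLineBundle) {s : N.H0} (hs : s ≠ 0) :
    Function.Injective (secHom N s).φ₁ := by
  haveI := H.ded₁
  haveI := hN.inv₁
  rw [injective_iff_map_eq_zero]
  intro b hb
  by_contra hb0
  exact H.sec_fst_ne_zero hN hs (smul_eq_zero_of_invertible hb0 hb)

theorem secHom_injective₂ (hN : N.IsLineBundle) {s : N.H0} (hs : s ≠ 0) :
    Function.Injective (secHom N s).φ₂ := by
  haveI := H.ded₂
  haveI := hN.inv₂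
  rw [injective_iff_map_eq_zero]
  intro b hb
  by_contra hb0
  exact H.sec_snd_ne_zero hN hs (smul_eq_zero_of_invertible hb0 hb)

theorem finite_coker_secHom₁ (hN : N.IsLineBundle) {s : N.H0} (hs : s ≠ 0) :
    Module.Finite κ (coker (secHom N s)).N₁ := by
  haveI := H.ded₁
  haveI := H.ft₁
  haveI := hN.inv₁
  change Module.Finite κ (N.N₁ ⧸ LinearMap.range (secHom N s).φ₁)
  rw [range_secHom_φ₁]
  exact H190.finite_quotient_span_singleton κ (H.sec_fst_ne_zero hN hs)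

theorem finite_coker_secHom₂ (hN : N.IsLineBundle) {s : N.H0} (hs : s ≠ 0) :
    Module.Finite κ (coker (secHom N s)).N₂ := by
  haveI := H.ded₂
  haveI := H.ft₂
  haveI := hN.inv₂
  change Module.Finite κ (N.N₂ ⧸ LinearMap.range (secHom N s).φ₂)
  rw [range_secHom_φ₂]
  exact H190.finite_quotient_span_singleton κ (H.sec_snd_ne_zero hN hs)

/-- Line bundles have finite-dimensional cohomology. -/
theorem finCoh (hN : N.IsLineBundle) : FinCoh N := by
  by_cases h0 : N.H0 = ⊥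
  · refine (finCoh_iff N).mpr ⟨?_, H.finite_H1 hN⟩
    rw [h0]
    infer_instance
  · obtain ⟨s, hs⟩ : ∃ s : N.H0, s ≠ 0 := by
      obtain ⟨x, hx, hx0⟩ := (Submodule.ne_bot_iff _).mp h0
      exact ⟨⟨x, hx⟩, fun h => hx0 (congrArg Subtype.val h)⟩
    haveI := H.finite_coker_secHom₁ hN hs
    haveI := H.finite_coker_secHom₂ hN hs
    exact (gluedSES (shortExact_coker (secHom N s) (H.secHom_injective₁ hN hs)
      (H.secHom_injective₂ hN hs))).finCoh_mid H.finCoh_unit (finCoh_of_finite _)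

/-- The degree of a line bundle. -/
noncomputable def _root_.Fermat.Agent.S25.ATLAS.TW.deg (N : GluedModule 𝔹) : ℤ :=
  gchi N - gchi (GluedModule.unit 𝔹)

/-- A nonzero section computes the degree: `deg N = dim H⁰(N / s O)`. -/
theorem deg_eq_of_section (hN : N.IsLineBundle) {s : N.H0} (hs : s ≠ 0) :
    deg N = (gh0 (coker (secHom N s)) : ℤ) := by
  haveI := H.finite_coker_secHom₁ hN hs
  haveI := H.finite_coker_secHom₂ hN hs
  have h := gchi_eq_add_coker (secHom N s) (H.secHom_injective₁ hN hs)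
    (H.secHom_injective₂ hN hs) H.finCoh_unit (finCoh_of_finite _)
  rw [deg, h, gchi_eq (coker (secHom N s)), gh1_of_finite]
  simp

theorem deg_nonneg_of_section (hN : N.IsLineBundle) {s : N.H0} (hs : s ≠ 0) : 0 ≤ deg N := by
  rw [H.deg_eq_of_section hN hs]
  exact Int.natCast_nonneg _

/-- A line bundle of negative degree has no sections. -/
theorem gh0_eq_zero_of_deg_neg (hN : N.IsLineBundle) (hd : deg N < 0) : gh0 N = 0 := by
  by_contra h
  have hfin : Module.Finite κ N.H0 := (H.finCoh hN).finite_H0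
  have h0 : N.H0 ≠ ⊥ := by
    intro hbot
    apply h
    rw [gh0_eq, hbot, finrank_bot]
  obtain ⟨x, hx, hx0⟩ := (Submodule.ne_bot_iff _).mp h0
  have := H.deg_nonneg_of_section hN (s := ⟨x, hx⟩) (fun h => hx0 (congrArg Subtype.val h))
  omega

/-- A line bundle of degree zero with a nonzero section is trivial. -/
theorem isIso_unit_of_deg_zero (hN : N.IsLineBundle) (hd : deg N = 0) {s : N.H0} (hs : s ≠ 0) :
    GluedModule.IsIso (GluedModule.unit 𝔹) N := by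
  haveI := H.finite_coker_secHom₁ hN hs
  haveI := H.finite_coker_secHom₂ hN hs
  have h0 : gh0 (coker (secHom N s)) = 0 := by
    have := H.deg_eq_of_section hN hs
    omega
  obtain ⟨h1, h2, -⟩ := subsingleton_of_gh0_eq_zero _ h0
  have hsurj₁ : Function.Surjective (secHom N s).φ₁ := by
    rw [← LinearMap.range_eq_top, ← Submodule.Quotient.subsingleton_iff]
    exact h1
  have hsurj₂ : Function.Surjective (secHom N s).φ₂ := by
    rw [← LinearMap.range_eq_top, ← Submodule.Quotient.subsingleton_iff]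
    exact h2
  exact ⟨isoOfBijective (secHom N s) ⟨H.secHom_injective₁ hN hs, hsurj₁⟩
    ⟨H.secHom_injective₂ hN hs, hsurj₂⟩⟩

/-! ### Modifications along ideal data -/

theorem ofFst_a₂_ne_bot {I : Ideal 𝔹.B₁} (hI : I ≠ ⊥) : (IdealDatum.ofFst I : IdealDatum 𝔹).a₂ ≠ ⊥ := by
  haveI := H.ded₁
  obtain ⟨a, ha, ha0⟩ := Submodule.exists_mem_ne_zero_of_ne_bot hI
  obtain ⟨b, n, hb⟩ := 𝔹.surj₂ (𝔹.r₁ a)
  have hb' : 𝔹.r₂ b = 𝔹.r₁ a * 𝔹.r₂ 𝔹.g ^ n := by
    rw [hb, mul_assoc, SubGlued.fg_pow, mul_one]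
  intro hbot
  have hmem : b ∈ (IdealDatum.ofFst I : IdealDatum 𝔹).a₂ := by
    rw [IdealDatum.ofFst_a₂, Ideal.mem_comap, hb']
    exact Ideal.mul_mem_right _ _ (Ideal.mem_map_of_mem _ ha)
  rw [hbot, Ideal.mem_bot] at hmem
  rw [hmem, map_zero, zero_mul] at hb
  exact ha0 (H.inj₁ (by rw [hb, map_zero]))

theorem ofSnd_a₁_ne_bot {I : Ideal 𝔹.B₂} (hI : I ≠ ⊥) : (IdealDatum.ofSnd I : IdealDatum 𝔹).a₁ ≠ ⊥ := by
  haveI := H.ded₂
  obtain ⟨a, ha, ha0⟩ := Submodule.exists_mem_ne_zero_of_ne_bot hI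
  obtain ⟨b, n, hb⟩ := 𝔹.surj₁ (𝔹.r₂ a)
  have hb' : 𝔹.r₁ b = 𝔹.r₂ a * 𝔹.r₁ 𝔹.f ^ n := by
    rw [hb, mul_assoc, SubGlued.gf_pow, mul_one]
  intro hbot
  have hmem : b ∈ (IdealDatum.ofSnd I : IdealDatum 𝔹).a₁ := by
    rw [IdealDatum.ofSnd_a₁, Ideal.mem_comap, hb']
    exact Ideal.mul_mem_right _ _ (Ideal.mem_map_of_mem _ ha)
  rw [hbot, Ideal.mem_bot] at hmem
  rw [hmem, map_zero, zero_mul] at hb
  exact ha0 (H.inj₂ (by rw [hb, map_zero]))

/-- `𝔞 • N` is a line bundle if `N` is and both ideals of `𝔞` are nonzero. -/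
theorem isLineBundle_smul (hN : N.IsLineBundle) (𝔞 : IdealDatum 𝔹) (h1 : 𝔞.a₁ ≠ ⊥)
    (h2 : 𝔞.a₂ ≠ ⊥) : (𝔞.smul N).IsLineBundle := by
  haveI := H.ded₁
  haveI := H.ded₂
  haveI := hN.inv₁
  haveI := hN.inv₂
  haveI := invertible_ideal_of_isDedekindDomain 𝔞.a₁ h1
  haveI := invertible_ideal_of_isDedekindDomain 𝔞.a₂ h2
  exact ⟨invertible_smul_top 𝔞.a₁ N.N₁, invertible_smul_top 𝔞.a₂ N.N₂⟩

theorem finite_quot₁ (hN : N.IsLineBundle) (𝔞 : IdealDatum 𝔹) (h1 : 𝔞.a₁ ≠ ⊥) :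
    Module.Finite κ (𝔞.quot N).N₁ := by
  haveI := H.ded₁
  haveI := H.ft₁
  haveI := hN.inv₁
  obtain ⟨hfin, ⟨e⟩⟩ := exists_equiv_quot_of_ne_bot κ N.N₁ h1
  exact Module.Finite.equiv (e.restrictScalars κ).symm

theorem finite_quot₂ (hN : N.IsLineBundle) (𝔞 : IdealDatum 𝔹) (h2 : 𝔞.a₂ ≠ ⊥) :
    Module.Finite κ (𝔞.quot N).N₂ := by
  haveI := H.ded₂
  haveI := H.ft₂
  haveI := hN.inv₂
  obtain ⟨hfin, ⟨e⟩⟩ := exists_equiv_quot_of_ne_bot κ N.N₂ h2
  exact Module.Finite.equiv (e.restrictScalars κ).symm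

/-- Chart-2 saturation: if `𝔞.a₂` is the contraction of the overlap ideal, then membership in
`𝔞.a₂ • N₂` can be tested on the overlap. -/
theorem mem_smul_top_of_ι₂_mem (hN : N.IsLineBundle) (𝔞 : IdealDatum 𝔹) (h2 : 𝔞.a₂ ≠ ⊥)
    (hsat : 𝔞.a₂ = 𝔞.a₁₂.comap 𝔹.r₂) (n : N.N₂)
    (hn : N.ι₂ n ∈ (𝔞.a₁₂ • ⊤ : Submodule 𝔹.B₁₂ N.N₁₂)) :
    n ∈ (𝔞.a₂ • ⊤ : Submodule 𝔹.B₂ N.N₂) := by
  haveI := H.ded₂
  haveI := H.ft₂
  haveI := hN.inv₂
  obtain ⟨m, hm⟩ := (𝔞.sub N).sat₂ n hn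
  obtain ⟨-, ⟨e⟩⟩ := exists_equiv_quot_of_ne_bot κ N.N₂ h2
  have hm' : 𝔹.g ^ m • (Submodule.Quotient.mk n : N.N₂ ⧸ (𝔞.a₂ • ⊤ : Submodule 𝔹.B₂ N.N₂)) = 0 := by
    rw [← Submodule.Quotient.mk_smul, Submodule.Quotient.mk_eq_zero]
    exact hm
  have h3 : 𝔹.g ^ m • e (Submodule.Quotient.mk n) = 0 := by rw [← map_smul, hm', map_zero]
  obtain ⟨b, hb⟩ := Ideal.Quotient.mk_surjective (e (Submodule.Quotient.mk n))
  rw [← hb] at h3
  have h4 : 𝔹.g ^ m * b ∈ 𝔞.a₂ := by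
    rw [← Ideal.Quotient.eq_zero_iff_mem, map_mul]
    exact h3
  have h5 : b ∈ 𝔞.a₂ := by
    rw [hsat, Ideal.mem_comap] at h4 ⊢
    rw [map_mul, map_pow] at h4
    have := Ideal.mul_mem_left _ (𝔹.r₁ 𝔹.f ^ m) h4
    rwa [← mul_assoc, SubGlued.fg_pow, one_mul] at this
  have h6 : e (Submodule.Quotient.mk n) = 0 := by
    rw [← hb]
    exact Ideal.Quotient.eq_zero_iff_mem.mpr h5
  have h7 := e.injective (h6.trans (map_zero e).symm)
  exact (Submodule.Quotient.mk_eq_zero _).mp h7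

/-- Chart-1 saturation. -/
theorem mem_smul_top_of_ι₁_mem (hN : N.IsLineBundle) (𝔞 : IdealDatum 𝔹) (h1 : 𝔞.a₁ ≠ ⊥)
    (hsat : 𝔞.a₁ = 𝔞.a₁₂.comap 𝔹.r₁) (n : N.N₁)
    (hn : N.ι₁ n ∈ (𝔞.a₁₂ • ⊤ : Submodule 𝔹.B₁₂ N.N₁₂)) :
    n ∈ (𝔞.a₁ • ⊤ : Submodule 𝔹.B₁ N.N₁) := by
  haveI := H.ded₁
  haveI := H.ft₁
  haveI := hN.inv₁
  obtain ⟨m, hm⟩ := (𝔞.sub N).sat₁ n hn
  obtain ⟨-, ⟨e⟩⟩ := exists_equiv_quot_of_ne_bot κ N.N₁ h1
  have hm' : 𝔹.f ^ m • (Submodule.Quotient.mk n : N.N₁ ⧸ (𝔞.a₁ • ⊤ : Submodule 𝔹.B₁ N.N₁)) = 0 := by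
    rw [← Submodule.Quotient.mk_smul, Submodule.Quotient.mk_eq_zero]
    exact hm
  have h3 : 𝔹.f ^ m • e (Submodule.Quotient.mk n) = 0 := by rw [← map_smul, hm', map_zero]
  obtain ⟨b, hb⟩ := Ideal.Quotient.mk_surjective (e (Submodule.Quotient.mk n))
  rw [← hb] at h3
  have h4 : 𝔹.f ^ m * b ∈ 𝔞.a₁ := by
    rw [← Ideal.Quotient.eq_zero_iff_mem, map_mul]
    exact h3
  have h5 : b ∈ 𝔞.a₁ := by
    rw [hsat, Ideal.mem_comap] at h4 ⊢
    rw [map_mul, map_pow] at h4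
    have := Ideal.mul_mem_left _ (𝔹.r₂ 𝔹.g ^ m) h4
    rwa [← mul_assoc, SubGlued.gf_pow, one_mul] at this
  have h6 : e (Submodule.Quotient.mk n) = 0 := by
    rw [← hb]
    exact Ideal.Quotient.eq_zero_iff_mem.mpr h5
  have h7 := e.injective (h6.trans (map_zero e).symm)
  exact (Submodule.Quotient.mk_eq_zero _).mp h7

end CurveChartHyp

end Fermat.Agent.S25.ATLAS.TW
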