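/-
S25 / ATLAS / TW — leaf `INST` of helper228's plan (`ATLAS/TW/Plan.lean`):
the chart of the curve over an algebraically closed field is a curve chart.
Assembly of the published `Lib/Curve` and `Lib/Chart` facts.  (helper9145)
-/
import Fermat.Agent.S25.ATLAS.TW.Curve
import Fermat.Agent.S25.Lib.Curve.Basic
import Fermat.Agent.S25.Lib.Chart.Facts3648

set_option autoImplicit false

universe u

namespace Fermat.Agent.S25.ATLAS.TW

open scoped TensorProduct

namespace INST

variable {k : Type u} [Field k]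

/-- A `k`-algebra with a `k`-point and a transcendental element does not become a field
after extending scalars to a field `κ`. -/
theorem not_isField_tensor (κ : Type u) [Field κ] [Algebra k κ] {A : Type u} [CommRing A]
    [Algebra k A] (x : A →ₐ[k] k) (a : A) (ha : Transcendental k a) :
    ¬ IsField (κ ⊗[k] A) := by
  intro hF
  set y : A →ₐ[k] κ := (Algebra.ofId k κ).comp x with hy
  set t : κ ⊗[k] A := (1 : κ) ⊗ₜ[k] a - (1 : κ) ⊗ₜ[k] (algebraMap k A (x a)) with ht
  have hpt : Lib.Curve.pointLift y t = 0 := by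
    rw [ht, map_sub, Lib.Curve.pointLift_tmul, Lib.Curve.pointLift_tmul, hy]
    simp [Algebra.ofId_apply]
  have ht0 : t = 0 := by
    by_contra hne
    obtain ⟨s, hs⟩ := hF.mul_inv_cancel hne
    have h1 : Lib.Curve.pointLift y (t * s) = 1 := by rw [hs, map_one]
    rw [map_mul, hpt, zero_mul] at h1
    exact zero_ne_one h1
  have hinj : Function.Injective
      (Algebra.TensorProduct.includeRight : A →ₐ[k] κ ⊗[k] A) :=
    Algebra.TensorProduct.includeRight_injective (algebraMap k κ).injective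
  have h2 : a = algebraMap k A (x a) := by
    apply hinj
    simp only [Algebra.TensorProduct.includeRight_apply]
    exact sub_eq_zero.mp ht0
  apply ha
  rw [h2]
  exact isAlgebraic_algebraMap _

end INST

variable {k : Type u} [Field k] (𝒞 : CurveData k)

variable [IsAlgClosed k]

variable (κ : Type u) [Field κ] [IsAlgClosed κ] [Algebra k κ]

/-- LEAF `INST`: the chart over an algebraically closed field is a curve chart. -/
theorem curveChartHyp : CurveChartHyp (𝒞.chart κ) where
  ded₁ := Lib.Curve.chart_isDedekindDomain₁ 𝒞 κ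
  ded₂ := Lib.Curve.chart_isDedekindDomain₂ 𝒞 κ
  nf₁ := INST.not_isField_tensor κ 𝒞.ε 𝒞.f (Lib.Curve.transcendental_f 𝒞)
  nf₂ := by
    have := Lib.Curve.infinite_points_A₂ 𝒞
    obtain ⟨x⟩ := (inferInstance : Nonempty (𝒞.A₂ →ₐ[k] k))
    exact INST.not_isField_tensor κ x 𝒞.g (Lib.Curve.transcendental_g 𝒞)
  ft₁ := Lib.Curve.chart_finiteType₁ 𝒞 κ
  ft₂ := Lib.Curve.chart_finiteType₂ 𝒞 κ
  inj₁ := Lib.Curve.chart_r₁_injective 𝒞 κ
  inj₂ := Lib.Curve.chart_r₂_injective 𝒞 κ
  fin₁ := Lib.Curve.chart_finite_adjoin_f 𝒞 κ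
  glob := fun a₁ a₂ h => by
    obtain ⟨c, h₁, -⟩ := Lib.Chart.chart_glob 𝒞 κ a₁ a₂ h
    exact ⟨c, h₁⟩

end Fermat.Agent.S25.ATLAS.TW
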