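/-
S25 package ATLAS, sub-package TW — LEAF `CHIK` (helper5711), plan of sub-captain helper228.

`chi_smul_twist` : `χ(L(N·D∞ - x₁ - … - x_m)) = χ(L) + N·n₀ - m`, EXACT statement of
`TW/Plan.lean`.  The proof is `CHIK.chi_smul_twist_core` (`TW/CHIK/Core.lean`, which imports only
`TW/Defs` and `TW/Curve`) applied to the leaves `INST` (`curveChartHyp`) and `N0`
(`finrank_quot_g`).
-/
import Fermat.Agent.S25.ATLAS.TW.CHIK.Core
import Fermat.Agent.S25.ATLAS.TW.INST
import Fermat.Agent.S25.ATLAS.TW.N0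

set_option autoImplicit false

universe u

namespace Fermat.Agent.S25.ATLAS.TW

open scoped TensorProduct

open GluedModule T1308

variable {k : Type u} [Field k] (𝒞 : CurveData k)

variable [IsAlgClosed k]

section LevelII

variable (κ : Type u) [Field κ] [IsAlgClosed κ] [Algebra k κ]

/-- LEAF `CHIK`: `χ(L(N·D∞ - x₁ - … - x_m)) = χ(L) + N·n₀ - m`. -/
theorem chi_smul_twist (L : GluedModule (𝒞.chart κ)) (hL : L.IsLineBundle)
    (l : List (𝒞.A₁₂ →ₐ[k] k)) (N : ℕ) :
    GluedModule.chi (((divDatum 𝒞 κ l).smul L).twist (N : ℤ)) =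
      GluedModule.chi L + (N : ℤ) * n₀ 𝒞 - l.length :=
  CHIK.chi_smul_twist_core 𝒞 κ (curveChartHyp 𝒞 κ) (finrank_quot_g 𝒞 κ) L hL l N

end LevelII

end Fermat.Agent.S25.ATLAS.TW
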