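/-
S25 package ATLAS, sub-package TW — LEAF `GOODISO` (helper7531).
`good_of_iso`: `Good` is invariant under isomorphism of glued modules.
Exact name and statement of `TW/Plan.lean` (sub-captain helper228).
-/
import Fermat.Agent.S25.ATLAS.RIG
import Fermat.Agent.S25.ATLAS.TW.Defs
import Fermat.Agent.S25.ATLAS.TW.Curve

set_option autoImplicit false

universe u

namespace Fermat.Agent.S25.ATLAS.TW

open scoped TensorProduct

open GluedModule T1308

variable {k : Type u} [Field k] (𝒞 : CurveData k)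

variable [IsAlgClosed k]

section LevelII

variable (κ : Type u) [Field κ] [IsAlgClosed κ] [Algebra k κ]

/-- LEAF `GOODISO`: `Good` is invariant under isomorphism. -/
theorem good_of_iso (M M' : GluedModule (𝒞.chart κ)) (h : Good 𝒞 M) (e : Nonempty (M.Iso M')) :
    Good 𝒞 M' := by
  obtain ⟨e⟩ := e
  obtain ⟨h1, h0, s, hs1, hs2⟩ := h
  refine ⟨?_, ?_, ⟨e.H0 s, ?_, ?_⟩⟩
  · exact e.H1.symm.toEquiv.subsingleton
  · rw [← h0]
    exact (LinearEquiv.finrank_eq e.H0).symm
  · intro hmem
    apply hs1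
    have hmap : (RingHom.ker (𝒞.epsR κ : (𝒞.chart κ).B₁ →+* κ) •
        (⊤ : Submodule (𝒞.chart κ).B₁ M'.N₁)).map e.e₁.symm.toLinearMap =
        RingHom.ker (𝒞.epsR κ : (𝒞.chart κ).B₁ →+* κ) •
          (⊤ : Submodule (𝒞.chart κ).B₁ M.N₁) := by
      rw [Submodule.map_smul'', Submodule.map_top, LinearMap.range_eq_top.mpr
        e.e₁.symm.surjective]
    rw [← hmap]
    refine ⟨_, hmem, ?_⟩
    change e.e₁.symm (e.e₁ (s : M.N₁ × M.N₂).1) = _
    exact e.e₁.symm_apply_apply _
  · have hmap := congrArg (Submodule.map e.e₂.toLinearMap) hs2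
    rw [Submodule.map_sup, Submodule.map_span, Set.image_singleton, Submodule.map_smul'',
      Submodule.map_top, LinearMap.range_eq_top.mpr e.e₂.surjective] at hmap
    exact hmap

end LevelII

end Fermat.Agent.S25.ATLAS.TW
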