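/-
S25 ATLAS/TW leaf GENUS (helper1691): `finrank_H1_unit`, statement exactly as in `TW/Plan.lean`.
The genus is invariant under extension of the base field: for every field `K` over `k`,
`dim_K H¹(O_{C_K}) = genus 𝒞` (`GENUS.finrank_H1_unit_field`).
On `ATLAS/Defs.lean` only.  Sorry-free.
-/
import Fermat.Agent.S25.ATLAS.Defs

set_option autoImplicit false

universe u

namespace Fermat.Agent.S25.ATLAS.TW.GENUS

open scoped TensorProduct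

open Fermat.Agent.S25 GluedModule

variable {k : Type u} [Field k] (𝒞 : CurveData k)

/-- The Čech differential of `O` over `k`, on the rings `A₁ × A₂ → A₁₂` themselves. -/
def d₀ : (𝒞.A₁ × 𝒞.A₂) →ₗ[k] 𝒞.A₁₂ :=
  𝒞.r₁.toLinearMap.comp (LinearMap.fst k 𝒞.A₁ 𝒞.A₂) -
    𝒞.r₂.toLinearMap.comp (LinearMap.snd k 𝒞.A₁ 𝒞.A₂)

@[simp] theorem d₀_apply (x : 𝒞.A₁ × 𝒞.A₂) : d₀ 𝒞 x = 𝒞.r₁ x.1 - 𝒞.r₂ x.2 := rfl

/-- `H¹(C, O)` computed on the rings `A_i` (no `k ⊗[k] -`). -/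
abbrev V₀ : Type u := 𝒞.A₁₂ ⧸ LinearMap.range (d₀ 𝒞)

variable (K : Type u) [Field K] [Algebra k K]

/-- The projection `K ⊗ A₁₂ → K ⊗ H¹(O)`. -/
noncomputable def q : (K ⊗[k] 𝒞.A₁₂) →ₗ[K] (K ⊗[k] V₀ 𝒞) :=
  (LinearMap.range (d₀ 𝒞)).mkQ.baseChange K

theorem q_surjective : Function.Surjective (q 𝒞 K) := by
  have h : Function.Surjective (LinearMap.lTensor K (LinearMap.range (d₀ 𝒞)).mkQ) :=
    LinearMap.lTensor_surjective K (Submodule.mkQ_surjective _)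
  exact h

theorem q_eq_zero_iff (x : K ⊗[k] 𝒞.A₁₂) :
    q 𝒞 K x = 0 ↔ ∃ z : K ⊗[k] (𝒞.A₁ × 𝒞.A₂), (d₀ 𝒞).baseChange K z = x := by
  have hex : Function.Exact (d₀ 𝒞) (LinearMap.range (d₀ 𝒞)).mkQ :=
    LinearMap.exact_map_mkQ_range _
  have h := lTensor_exact K hex (Submodule.mkQ_surjective _)
  constructor
  · intro hx
    have hx' : LinearMap.lTensor K (LinearMap.range (d₀ 𝒞)).mkQ x = 0 := hx
    obtain ⟨y, hy⟩ := (h x).mp hx'
    exact ⟨y, hy⟩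
  · rintro ⟨y, rfl⟩
    exact (h _).mpr ⟨y, rfl⟩

theorem r₁_mem (x : K ⊗[k] 𝒞.A₁) :
    ∃ z : K ⊗[k] (𝒞.A₁ × 𝒞.A₂), (d₀ 𝒞).baseChange K z =
      Algebra.TensorProduct.map (AlgHom.id K K) 𝒞.r₁ x := by
  induction x using TensorProduct.induction_on with
  | zero => exact ⟨0, by simp⟩
  | tmul c a => exact ⟨c ⊗ₜ[k] (a, 0), by simp⟩
  | add x x' hx hx' =>
    obtain ⟨z, hz⟩ := hx
    obtain ⟨z', hz'⟩ := hx'
    exact ⟨z + z', by rw [map_add, map_add, hz, hz']⟩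

theorem r₂_mem (x : K ⊗[k] 𝒞.A₂) :
    ∃ z : K ⊗[k] (𝒞.A₁ × 𝒞.A₂), (d₀ 𝒞).baseChange K z =
      Algebra.TensorProduct.map (AlgHom.id K K) 𝒞.r₂ x := by
  induction x using TensorProduct.induction_on with
  | zero => exact ⟨0, by simp⟩
  | tmul c a => exact ⟨c ⊗ₜ[k] (0, -a), by simp⟩
  | add x x' hx hx' =>
    obtain ⟨z, hz⟩ := hx
    obtain ⟨z', hz'⟩ := hx'
    exact ⟨z + z', by rw [map_add, map_add, hz, hz']⟩

theorem baseChange_mem (z : K ⊗[k] (𝒞.A₁ × 𝒞.A₂)) :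
    ∃ (x : K ⊗[k] 𝒞.A₁) (y : K ⊗[k] 𝒞.A₂), (d₀ 𝒞).baseChange K z =
      Algebra.TensorProduct.map (AlgHom.id K K) 𝒞.r₁ x -
        Algebra.TensorProduct.map (AlgHom.id K K) 𝒞.r₂ y := by
  induction z using TensorProduct.induction_on with
  | zero => exact ⟨0, 0, by simp⟩
  | tmul c ab => exact ⟨c ⊗ₜ[k] ab.1, c ⊗ₜ[k] ab.2, by simp [TensorProduct.tmul_sub]⟩
  | add z z' hz hz' =>
    obtain ⟨x, y, h⟩ := hz
    obtain ⟨x', y', h'⟩ := hz'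
    exact ⟨x + x', y + y', by rw [map_add, map_add, map_add, h, h']; abel⟩

/-- `q`, as a map out of the overlap module of `O_{C_K}`. -/
noncomputable def Q : (GluedModule.unit (𝒞.chart K)).N₁₂ →ₗ[K] (K ⊗[k] V₀ 𝒞) :=
  q 𝒞 K

theorem Q_surjective : Function.Surjective (Q 𝒞 K) := q_surjective 𝒞 K

theorem range_d_eq_ker_Q :
    LinearMap.range (GluedModule.unit (𝒞.chart K)).d = LinearMap.ker (Q 𝒞 K) := by
  ext x
  rw [LinearMap.mem_ker]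
  refine Iff.trans ?_ (q_eq_zero_iff 𝒞 K x).symm
  constructor
  · rintro ⟨⟨a, b⟩, rfl⟩
    obtain ⟨z, hz⟩ := r₁_mem 𝒞 K a
    obtain ⟨z', hz'⟩ := r₂_mem 𝒞 K b
    refine ⟨z - z', ?_⟩
    rw [map_sub, hz, hz', GluedModule.d_apply]
    rfl
  · rintro ⟨z, rfl⟩
    obtain ⟨a, b, h⟩ := baseChange_mem 𝒞 K z
    refine ⟨(a, b), ?_⟩
    rw [h, GluedModule.d_apply]
    rfl

/-- `H¹(O_{C_K}) ≅ K ⊗ H¹(O_C)`. -/
noncomputable def h1UnitEquiv :
    (GluedModule.unit (𝒞.chart K)).H1 ≃ₗ[K] (K ⊗[k] V₀ 𝒞) :=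
  (Submodule.quotEquivOfEq _ _ (range_d_eq_ker_Q 𝒞 K)).trans
    ((Q 𝒞 K).quotKerEquivOfSurjective (Q_surjective 𝒞 K))

theorem finrank_H1_unit_eq :
    Module.finrank K (GluedModule.unit (𝒞.chart K)).H1 = Module.finrank k (V₀ 𝒞) := by
  rw [LinearEquiv.finrank_eq (h1UnitEquiv 𝒞 K), Module.finrank_baseChange]

/-- **The genus is invariant under base field extension.** -/
theorem finrank_H1_unit_field (K : Type u) [Field K] [Algebra k K] :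
    Module.finrank K (GluedModule.unit (𝒞.chart K)).H1 = genus 𝒞 := by
  rw [genus, finrank_H1_unit_eq 𝒞 K, finrank_H1_unit_eq 𝒞 k]

end Fermat.Agent.S25.ATLAS.TW.GENUS

namespace Fermat.Agent.S25.ATLAS.TW

open Fermat.Agent.S25 GluedModule

variable {k : Type u} [Field k] (𝒞 : CurveData k) [IsAlgClosed k]

variable (κ : Type u) [Field κ] [IsAlgClosed κ] [Algebra k κ]

set_option linter.unusedSectionVars false in
/-- LEAF `GENUS`: `h¹(O)` does not depend on the field. -/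
theorem finrank_H1_unit :
    Module.finrank κ (GluedModule.unit (𝒞.chart κ)).H1 = genus 𝒞 :=
  GENUS.finrank_H1_unit_field 𝒞 κ

end Fermat.Agent.S25.ATLAS.TW
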