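/-
S25 / ATLAS / TW — LEAF `N0` (`finrank_quot_g`), statement EXACTLY as in `TW/Plan.lean`
(sub-captain helper228).  Author: helper4128.  No sorry.

`(κ ⊗[k] A₂) ⧸ (1 ⊗ g) ≃ₐ[κ] κ ⊗[k] (A₂ ⧸ (g))`, hence `deg D∞ = dim A₂/(g)` does not depend on
the field.
-/
import Fermat.Agent.S25.ATLAS.TW.Defs

set_option autoImplicit false

universe u

namespace Fermat.Agent.S25.ATLAS.TW

open scoped TensorProduct

open GluedModule

namespace N0

/-- Base change of a quotient by a principal ideal: `(K ⊗[k] A) ⧸ (1 ⊗ a) ≃ₐ[K] K ⊗[k] (A ⧸ (a))`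
(any commutative `k`-algebras `K`, `A`). -/
noncomputable def quotSpanTmulEquiv {k : Type u} [CommRing k] (K : Type u) [CommRing K]
    [Algebra k K] {A : Type u} [CommRing A] [Algebra k A] (a : A) :
    ((K ⊗[k] A) ⧸ Ideal.span {(1 : K) ⊗ₜ[k] a}) ≃ₐ[K] K ⊗[k] (A ⧸ Ideal.span {a}) := by
  let Φ : K ⊗[k] A →ₐ[K] K ⊗[k] (A ⧸ Ideal.span {a}) :=
    Algebra.TensorProduct.map (AlgHom.id K K) (Ideal.Quotient.mkₐ k (Ideal.span {a}))
  have hsurj : Function.Surjective Φ :=
    Algebra.TensorProduct.map_surjective (f := AlgHom.id K K)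
      (g := Ideal.Quotient.mkₐ k (Ideal.span {a})) Function.surjective_id
      (Ideal.Quotient.mkₐ_surjective k _)
  have hker : RingHom.ker Φ = Ideal.span {(1 : K) ⊗ₜ[k] a} := by
    have h := Algebra.TensorProduct.lTensor_ker (R := k) (A := K)
      (g := Ideal.Quotient.mkₐ k (Ideal.span {a})) (Ideal.Quotient.mkₐ_surjective k _)
    have h' : RingHom.ker Φ = RingHom.ker (Algebra.TensorProduct.map (AlgHom.id k K)
        (Ideal.Quotient.mkₐ k (Ideal.span {a}))) := by
      ext x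
      simp only [RingHom.mem_ker]
      rfl
    have hk : RingHom.ker (Ideal.Quotient.mkₐ k (Ideal.span {a})) = Ideal.span {a} := by
      ext x
      rw [RingHom.mem_ker, Ideal.Quotient.mkₐ_eq_mk, Ideal.Quotient.eq_zero_iff_mem]
    rw [h', h, hk, Ideal.map_span, Set.image_singleton]
    rfl
  exact (Ideal.quotientEquivAlgOfEq K hker).symm.trans
    (Ideal.quotientKerAlgEquivOfSurjective hsurj)

end N0

variable {k : Type u} [Field k] (𝒞 : CurveData k)

variable [IsAlgClosed k]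

section LevelII

variable (κ : Type u) [Field κ] [IsAlgClosed κ] [Algebra k κ]

/-- LEAF `N0`: `deg D∞` does not depend on the field. -/
theorem finrank_quot_g :
    Module.finrank κ ((𝒞.chart κ).B₂ ⧸ Ideal.span {(𝒞.chart κ).g}) = n₀ 𝒞 := by
  have e := (N0.quotSpanTmulEquiv (k := k) κ 𝒞.g).toLinearEquiv.finrank_eq
  rw [Module.finrank_baseChange] at e
  exact e

end LevelII

end Fermat.Agent.S25.ATLAS.TW
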