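/-
S25 / ATLAS / TW, leaf `PT1` (helper6530): the first-chart ideal of a `k`-point of `U₁ ∩ U₂`
is a maximal ideal of `κ ⊗ A₁` (kernel of a surjection onto `κ`).
-/
import Fermat.Agent.S25.ATLAS.TW.Defs

set_option autoImplicit false

universe u

namespace Fermat.Agent.S25.ATLAS.TW

open scoped TensorProduct

open GluedModule T1308

variable {k : Type u} [Field k] (𝒞 : CurveData k)

variable [IsAlgClosed k]

section LevelII

variable (κ : Type u) [Field κ] [IsAlgClosed κ] [Algebra k κ]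

set_option linter.unusedSectionVars false in
/-- LEAF `PT1`: the first-chart ideal of a `k`-point is a maximal ideal of `κ ⊗ A₁`. -/
theorem ptDatum_a₁_isMaximal (x : 𝒞.A₁₂ →ₐ[k] k) : (ptDatum 𝒞 κ x).a₁.IsMaximal := by
  let χ : (𝒞.chart κ).B₁ →ₐ[κ] κ := (ptHom 𝒞 κ x).comp (𝒞.chart κ).r₁
  have hsurj : Function.Surjective (χ : (𝒞.chart κ).B₁ →+* κ) := fun c =>
    ⟨algebraMap κ (𝒞.chart κ).B₁ c, by
      change χ (algebraMap κ (𝒞.chart κ).B₁ c) = c
      rw [AlgHom.commutes]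
      rfl⟩
  have h := RingHom.ker_isMaximal_of_surjective (χ : (𝒞.chart κ).B₁ →+* κ) hsurj
  have e : (ptDatum 𝒞 κ x).a₁ = RingHom.ker (χ : (𝒞.chart κ).B₁ →+* κ) := by
    ext b
    rfl
  rw [e]
  exact h

end LevelII

end Fermat.Agent.S25.ATLAS.TW
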