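/-
S25 / ATLAS / TW, leaf `PT2` (helper6530): distinct `k`-points of `U₁ ∩ U₂` have distinct
first-chart ideals over `κ`.
-/
import Fermat.Agent.S25.ATLAS.TW.Defs

set_option autoImplicit false

universe u

namespace Fermat.Agent.S25.ATLAS.TW

open scoped TensorProduct

open GluedModule T1308

variable {k : Type u} [Field k] (𝒞 : CurveData k)

variable [IsAlgClosed k]

section LevelII

variable (κ : Type u) [Field κ] [IsAlgClosed κ] [Algebra k κ]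

set_option linter.unusedSectionVars false in
/-- LEAF `PT2`: distinct `k`-points have distinct ideals over `κ`. -/
theorem ptDatum_a₁_injective :
    Function.Injective (fun x : 𝒞.A₁₂ →ₐ[k] k => (ptDatum 𝒞 κ x).a₁) := by
  intro x y hxy
  have hxy' : (ptDatum 𝒞 κ x).a₁ = (ptDatum 𝒞 κ y).a₁ := hxy
  -- the value of the point at `1 ⊗ a`
  let inc : 𝒞.A₁ → (𝒞.chart κ).B₁ := fun a => (1 : κ) ⊗ₜ[k] a
  have hval : ∀ (z : 𝒞.A₁₂ →ₐ[k] k) (a : 𝒞.A₁),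
      ptHom 𝒞 κ z ((𝒞.chart κ).r₁ (inc a)) = algebraMap k κ (z (𝒞.r₁ a)) := by
    intro z a
    change Algebra.TensorProduct.lift (AlgHom.id κ κ) ((Algebra.ofId k κ).comp z)
        (fun _ _ => Commute.all _ _)
        (Algebra.TensorProduct.map (AlgHom.id κ κ) 𝒞.r₁ ((1 : κ) ⊗ₜ[k] a)) = _
    rw [Algebra.TensorProduct.map_tmul, Algebra.TensorProduct.lift_tmul]
    simp [Algebra.ofId_apply]
  have hconst : ∀ (z : 𝒞.A₁₂ →ₐ[k] k) (c : κ),
      ptHom 𝒞 κ z ((𝒞.chart κ).r₁ (algebraMap κ (𝒞.chart κ).B₁ c)) = c := by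
    intro z c
    rw [AlgHom.commutes, AlgHom.commutes]
    rfl
  have key : ∀ a : 𝒞.A₁, x (𝒞.r₁ a) = y (𝒞.r₁ a) := by
    intro a
    have hb : (inc a - algebraMap κ (𝒞.chart κ).B₁ (algebraMap k κ (x (𝒞.r₁ a)))) ∈
        (ptDatum 𝒞 κ x).a₁ := by
      change ptHom 𝒞 κ x ((𝒞.chart κ).r₁ (inc a -
        algebraMap κ (𝒞.chart κ).B₁ (algebraMap k κ (x (𝒞.r₁ a))))) = 0
      rw [map_sub, map_sub, hval, hconst, sub_self]
    rw [hxy'] at hb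
    have hb' : ptHom 𝒞 κ y ((𝒞.chart κ).r₁ (inc a -
        algebraMap κ (𝒞.chart κ).B₁ (algebraMap k κ (x (𝒞.r₁ a))))) = 0 := hb
    rw [map_sub, map_sub, hval, hconst, sub_eq_zero] at hb'
    exact ((algebraMap k κ).injective hb').symm
  have hg : x (𝒞.r₂ 𝒞.g) = y (𝒞.r₂ 𝒞.g) := by
    have hx : x (𝒞.r₁ 𝒞.f) * x (𝒞.r₂ 𝒞.g) = 1 := by rw [← map_mul, 𝒞.fg, map_one]
    have hy : y (𝒞.r₁ 𝒞.f) * y (𝒞.r₂ 𝒞.g) = 1 := by rw [← map_mul, 𝒞.fg, map_one]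
    rw [key] at hx
    exact mul_left_cancel₀ (left_ne_zero_of_mul_eq_one hy) (hx.trans hy.symm)
  ext z
  obtain ⟨a, n, rfl⟩ := 𝒞.surj₁ z
  rw [map_mul, map_mul, map_pow, map_pow, key, hg]

end LevelII

end Fermat.Agent.S25.ATLAS.TW
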