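/-
S25 / ATLAS / TW -- LEAF `PTS` (helper6310): `U₁ ∩ U₂` has infinitely many `k`-points.
Exact name and statement of `ATLAS/TW/Plan.lean` (sub-captain helper228).

Proof: `f` takes every value `c : k` at a `k`-point `x_c` of `U₁` (`A₁` is integral over the
polynomial ring `k[f]`, going-up + Nullstellensatz); for `c ≠ 0` the point `x_c` inverts `f`,
hence extends to `A₁₂ = A₁[1/f]`; `c ↦ y_c` is injective on the infinite set `kˣ`.
-/
import Fermat.Agent.S25.ATLAS.TW.PTS.Points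

set_option autoImplicit false

universe u

namespace Fermat.Agent.S25.ATLAS.TW

variable {k : Type u} [Field k] (𝒞 : CurveData k)

namespace PTS

/-- For every nonzero `c : k` there is a `k`-point `y` of `U₁ ∩ U₂` with `f(y) = c`. -/
theorem exists_point₁₂_f_eq [IsAlgClosed k] (c : k) (hc : c ≠ 0) :
    ∃ y : 𝒞.A₁₂ →ₐ[k] k, y (𝒞.r₁ 𝒞.f) = c := by
  obtain ⟨x, hx⟩ := exists_point₁_f_eq 𝒞 c
  obtain ⟨y, hy⟩ := exists_extend₁ 𝒞 x (by rw [hx]; exact isUnit_iff_ne_zero.mpr hc)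
  exact ⟨y, by rw [← hx, ← hy]; rfl⟩

end PTS

variable [IsAlgClosed k]

/-- LEAF `PTS`: `U₁ ∩ U₂` has infinitely many `k`-points. -/
theorem infinite_points : Infinite (𝒞.A₁₂ →ₐ[k] k) := by
  have hex : ∀ c : {c : k // c ≠ 0}, ∃ y : 𝒞.A₁₂ →ₐ[k] k, y (𝒞.r₁ 𝒞.f) = (c : k) :=
    fun c => PTS.exists_point₁₂_f_eq 𝒞 c.1 c.2
  choose y hy using hex
  have hinj : Function.Injective y := by
    intro c c' h
    apply Subtype.ext
    rw [← hy c, ← hy c', h]
  have hinf : Infinite {c : k // c ≠ 0} :=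
    (Set.finite_singleton (0 : k)).infinite_compl.to_subtype
  exact Infinite.of_injective y hinj

end Fermat.Agent.S25.ATLAS.TW
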