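/-
S25 / ATLAS / TW, leaf `GOODK` (helper7710): `exists_good_down` — "the heart" of the twist
family.  For a line bundle `L` of degree `0` on the curve over an algebraically closed field
`κ ⊇ k` there are `N` and `k`-points `x₁, …, x_m` of `U₁ ∩ U₂` with `N·n₀ = m + genus` such
that `L(N·D∞ - x₁ - … - x_m)` is `Good`.

One line from `GOODK.exists_good_down_of` (`TW/GOODK/Core.lean`, which has the other leaves as
explicit hypotheses) and the delivered leaves INST, PTS, PT1, PT2, N0, GENUS.  No sorry.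
-/
import Fermat.Agent.S25.ATLAS.TW.GOODK.Core
import Fermat.Agent.S25.ATLAS.TW.INST
import Fermat.Agent.S25.ATLAS.TW.PTS
import Fermat.Agent.S25.ATLAS.TW.PT1
import Fermat.Agent.S25.ATLAS.TW.PT2
import Fermat.Agent.S25.ATLAS.TW.N0
import Fermat.Agent.S25.ATLAS.TW.GENUS

set_option autoImplicit false

universe u

namespace Fermat.Agent.S25.ATLAS.TW

open scoped TensorProduct

open GluedModule T1308

variable {k : Type u} [Field k] (𝒞 : CurveData k)

variable [IsAlgClosed k]

section LevelII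

variable (κ : Type u) [Field κ] [IsAlgClosed κ] [Algebra k κ]

/-- LEAF `GOODK` (the heart; "down form" of (Good Δ)): for a line bundle `L` of degree `0` over
an algebraically closed field there are `N` and `k`-points `x₁, …, x_m` of `U₁ ∩ U₂` with
`N·n₀ - m = genus` such that `M = L(N·D∞ - x₁ - … - x_m)` is `Good`. -/
theorem exists_good_down (L : GluedModule (𝒞.chart κ)) (hL : L.IsLineBundle)
    (hchi : GluedModule.chi L = GluedModule.chi (GluedModule.unit (𝒞.chart κ))) :
    ∃ (N : ℕ) (l : List (𝒞.A₁₂ →ₐ[k] k)), N * n₀ 𝒞 = l.length + genus 𝒞 ∧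
      Good 𝒞 (((divDatum 𝒞 κ l).smul L).twist (N : ℤ)) :=
  GOODK.exists_good_down_of 𝒞 κ (curveChartHyp 𝒞 κ) (infinite_points 𝒞)
    (ptDatum_a₁_isMaximal 𝒞 κ) (ptDatum_a₁_injective 𝒞 κ) (finrank_quot_g 𝒞 κ)
    (finrank_H1_unit 𝒞 κ) L hL hchi

end LevelII

end Fermat.Agent.S25.ATLAS.TW
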