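/-
S25 / ATLAS / TW, leaf `LB` (helper6530): `𝔡 • L` is a line bundle for the ideal datum `𝔡` of a
divisor `x₁ + … + x_m` of `k`-points of `U₁ ∩ U₂` (over an algebraically closed field `κ`).
Uses the leaves `INST` (`curveChartHyp`) and `PT1` (`ptDatum_a₁_isMaximal`).
-/
import Fermat.Agent.S25.ATLAS.TW.INST
import Fermat.Agent.S25.ATLAS.TW.PT1

set_option autoImplicit false

universe u

namespace Fermat.Agent.S25.ATLAS.TW

open scoped TensorProduct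

open GluedModule T1308

namespace LB

variable {k : Type u} [Field k] (𝒞 : CurveData k) (R : Type u) [CommRing R] [Algebra k R]

theorem divDatum_nil : divDatum 𝒞 R [] = 1 := rfl

theorem divDatum_cons (x : 𝒞.A₁₂ →ₐ[k] k) (l : List (𝒞.A₁₂ →ₐ[k] k)) :
    divDatum 𝒞 R (x :: l) = ptDatum 𝒞 R x * divDatum 𝒞 R l := by
  simp [divDatum]

end LB

variable {k : Type u} [Field k] (𝒞 : CurveData k)

variable [IsAlgClosed k]

section LevelII

variable (κ : Type u) [Field κ] [IsAlgClosed κ] [Algebra k κ]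

namespace LB

/-- The ideals of a point datum are nonzero. -/
theorem ptDatum_ne_bot (x : 𝒞.A₁₂ →ₐ[k] k) :
    (ptDatum 𝒞 κ x).a₁ ≠ ⊥ ∧ (ptDatum 𝒞 κ x).a₂ ≠ ⊥ := by
  have H := curveChartHyp 𝒞 κ
  have := H.ded₁
  have hmax := ptDatum_a₁_isMaximal 𝒞 κ x
  have h1 : (ptDatum 𝒞 κ x).a₁ ≠ ⊥ := Ring.ne_bot_of_isMaximal_of_not_isField hmax H.nf₁
  refine ⟨h1, ?_⟩
  have e : ptDatum 𝒞 κ x = IdealDatum.ofFst (ptDatum 𝒞 κ x).a₁ :=
    IdealDatum.ofOverlap_eq_ofFst _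
  rw [e]
  exact H.ofFst_a₂_ne_bot h1

/-- The ideals of a divisor datum are nonzero. -/
theorem divDatum_ne_bot (l : List (𝒞.A₁₂ →ₐ[k] k)) :
    (divDatum 𝒞 κ l).a₁ ≠ ⊥ ∧ (divDatum 𝒞 κ l).a₂ ≠ ⊥ := by
  have H := curveChartHyp 𝒞 κ
  have := H.ded₁
  have := H.ded₂
  induction l with
  | nil =>
    rw [divDatum_nil]
    exact ⟨by rw [IdealDatum.one_a₁]; exact top_ne_bot, by rw [IdealDatum.one_a₂]; exact top_ne_bot⟩
  | cons x l ih =>
    rw [divDatum_cons, IdealDatum.mul_a₁, IdealDatum.mul_a₂]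
    obtain ⟨h1, h2⟩ := ptDatum_ne_bot 𝒞 κ x
    exact ⟨fun h => (Ideal.mul_eq_bot.mp h).elim h1 ih.1,
      fun h => (Ideal.mul_eq_bot.mp h).elim h2 ih.2⟩

end LB

/-- LEAF `LB`: `𝔡 • L` is a line bundle for `𝔡` the ideal datum of a divisor `Σ x_j`. -/
theorem smul_divDatum_isLineBundle (L : GluedModule (𝒞.chart κ)) (hL : L.IsLineBundle)
    (l : List (𝒞.A₁₂ →ₐ[k] k)) : ((divDatum 𝒞 κ l).smul L).IsLineBundle :=
  (curveChartHyp 𝒞 κ).isLineBundle_smul hL _ (LB.divDatum_ne_bot 𝒞 κ l).1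
    (LB.divDatum_ne_bot 𝒞 κ l).2

end LevelII

end Fermat.Agent.S25.ATLAS.TW
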