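/-
S25 package ATLAS, sub-package TW, LEAF `RIGK` (helper7691): over the base field every line
bundle is rigid.  Statement exactly as in `TW/Plan.lean` (sub-captain helper228).

The `ε`-fibre `k ⊗[B₁, ε] P₁` of an invertible `B₁`-module is an invertible `k`-module, hence
`≃ k`; this gives an `ε`-semilinear surjection `P₁ → k`, and for an invertible module such a
surjection has the universal property of the fibre (frozen `Rigid`).
-/
import Fermat.Agent.S25.Defs
import Fermat.Agent.S25.ATLAS.TW.Dep.Rigid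

set_option autoImplicit false

universe u

namespace Fermat.Agent.S25.ATLAS.TW

open scoped TensorProduct

open GluedModule T1308

variable {k : Type u} [Field k] (𝒞 : CurveData k)

namespace RIGK

/-- An invertible module over a commutative `k`-algebra `B` with a `k`-point `ε : B →ₐ[k] k`
(`k` a field) admits an `ε`-semilinear `k`-linear surjection onto `k`. -/
theorem exists_semilinear_surj {B : Type u} [CommRing B] [Algebra k B] (ε : B →ₐ[k] k)
    (M : Type u) [AddCommGroup M] [Module B M] [Module k M] [IsScalarTower k B M]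
    [Module.Invertible B M] :
    ∃ ρ : M →ₗ[k] k, (∀ (b : B) (m : M), ρ (b • m) = ε b * ρ m) ∧ Function.Surjective ρ := by
  let _ : Algebra B k := ε.toRingHom.toAlgebra
  have halg : ∀ b : B, algebraMap B k b = ε b := fun _ => rfl
  have hinv : Module.Invertible k (k ⊗[B] M) := inferInstance
  obtain ⟨e⟩ := (Module.Invertible.free_iff_linearEquiv (R := k) (M := k ⊗[B] M)).mp inferInstance
  have key : ∀ (b : B) (m : M), (1 : k) ⊗ₜ[B] (b • m) = ε b • ((1 : k) ⊗ₜ[B] m) := by
    intro b m
    rw [← TensorProduct.smul_tmul, TensorProduct.smul_tmul', Algebra.smul_def, halg, smul_eq_mul]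
  have keyk : ∀ (c : k) (m : M), (1 : k) ⊗ₜ[B] (c • m) = c • ((1 : k) ⊗ₜ[B] m) := by
    intro c m
    rw [← algebraMap_smul B c m, key, ε.commutes]
    rfl
  refine ⟨{ toFun := fun m => e ((1 : k) ⊗ₜ[B] m)
            map_add' := fun m m' => by rw [TensorProduct.tmul_add, map_add]
            map_smul' := fun c m => by rw [keyk, map_smul]; rfl }, fun b m => ?_, fun r => ?_⟩
  · change e ((1 : k) ⊗ₜ[B] (b • m)) = ε b * e ((1 : k) ⊗ₜ[B] m)
    rw [key, map_smul, smul_eq_mul]
  · have hall : ∀ t : k ⊗[B] M, ∃ m : M, t = (1 : k) ⊗ₜ[B] m := by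
      intro t
      induction t using TensorProduct.induction_on with
      | zero => exact ⟨0, by rw [TensorProduct.tmul_zero]⟩
      | tmul c m =>
        refine ⟨c • m, ?_⟩
        rw [keyk, TensorProduct.smul_tmul', smul_eq_mul, mul_one]
      | add x y hx hy =>
        obtain ⟨m, rfl⟩ := hx
        obtain ⟨m', rfl⟩ := hy
        exact ⟨m + m', by rw [TensorProduct.tmul_add]⟩
    obtain ⟨m, hm⟩ := hall (e.symm r)
    exact ⟨m, by
      change e ((1 : k) ⊗ₜ[B] m) = r
      rw [← hm, LinearEquiv.apply_symm_apply]⟩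

/-- For a line bundle, a rigidification in the sense of helper1308 gives the frozen rigidity:
the `ε`-fibre is free of rank one. -/
theorem rigid_of_rigidification {R : Type u} [CommRing R] [Algebra k R]
    (N : GluedModule (𝒞.chart R)) (hN : N.IsLineBundle) (h : T1308.Rigid (𝒞.epsR R) N) :
    Fermat.Agent.S25.Rigid 𝒞 N := by
  obtain ⟨ρ⟩ := h
  have := hN.inv₁
  obtain ⟨n₀, h₀⟩ := ρ.exists_eq_one
  refine ⟨ρ.ρ, ρ.ρ_smul, ?_⟩
  intro Q _ _ h hh
  -- `h` kills `𝔪_ε N₁`
  have hker : ∀ n : N.N₁,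
      n ∈ (RingHom.ker ((𝒞.epsR R : (𝒞.chart R).B₁ →ₐ[R] R) : (𝒞.chart R).B₁ →+* R)) •
        (⊤ : Submodule (𝒞.chart R).B₁ N.N₁) → h n = 0 := by
    intro n hn
    refine Submodule.smul_induction_on hn (fun b hb m _ => ?_) (fun x y hx hy => ?_)
    · have hb' : 𝒞.epsR R b = 0 := hb
      rw [hh, hb', zero_smul]
    · rw [map_add, hx, hy, add_zero]
  have key : ∀ n : N.N₁, h n = ρ.ρ n • h n₀ := by
    intro n
    have hz : ρ.ρ (n - ρ.ρ n • n₀) = 0 := by
      rw [map_sub, map_smul, h₀, smul_eq_mul, mul_one, sub_self]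
    have := hker _ (ρ.mem_smul_top_of_ρ_eq_zero hz)
    rw [map_sub, map_smul, sub_eq_zero] at this
    exact this
  refine ⟨LinearMap.toSpanSingleton R Q (h n₀), fun n => ?_, fun h'' hh'' => ?_⟩
  · rw [LinearMap.toSpanSingleton_apply]
    exact (key n).symm
  · apply LinearMap.ext
    intro r
    obtain ⟨n, rfl⟩ := ρ.surj r
    rw [hh'', LinearMap.toSpanSingleton_apply]
    exact key n

end RIGK

/-- LEAF `RIGK`: over the base field every line bundle is rigid (the `ε`-fibre is a
one-dimensional vector space). -/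
theorem rigid_of_field (P : GluedModule (𝒞.chart k)) (hP : P.IsLineBundle) : Rigid 𝒞 P := by
  have := hP.inv₁
  obtain ⟨ρ, hρ, hs⟩ := RIGK.exists_semilinear_surj (𝒞.epsR k) P.N₁
  exact RIGK.rigid_of_rigidification 𝒞 P hP ⟨⟨ρ, hρ, hs⟩⟩

end Fermat.Agent.S25.ATLAS.TW
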