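/-
S25 package ATLAS, sub-package TW — LEAF `RIGT` (helper5711), plan of sub-captain helper228.

`rigid_tensor_iff` : for line bundles `L`, `P` with `P` rigid, `L ⊗ P` is rigid iff `L` is.

Proof: bridge between the frozen `Rigid` (universal property of the `ε`-fibre) and
helper1308's `T1308.Rigid` (`ε`-semilinear surjection onto `R`), valid for line bundles,
then `Rigid.tensor`, `Rigid.lbDual` and `L ≅ (L ⊗ P) ⊗ P^∨`.
-/
import Fermat.Agent.S25.ATLAS.Defs
import Fermat.Agent.S25.ATLAS.TW.Dep.Rigid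

set_option autoImplicit false

universe u

namespace Fermat.Agent.S25.ATLAS.TW

open scoped TensorProduct

open GluedModule T1308

variable {k : Type u} [Field k] (𝒞 : CurveData k)

namespace RIGT

variable {R : Type u} [CommRing R] [Algebra k R]

/-- The frozen `Rigid` gives an `ε`-semilinear surjection (no line bundle hypothesis). -/
theorem rigid1308_of_rigid (N : GluedModule (𝒞.chart R)) (h : Fermat.Agent.S25.Rigid 𝒞 N) :
    T1308.Rigid (𝒞.epsR R) N := by
  obtain ⟨e, he, huniv⟩ := h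
  refine ⟨⟨e, he, ?_⟩⟩
  -- surjectivity: the two maps `0`, `mkQ : R → R ⧸ range e` both factor `0`
  obtain ⟨h', -, huniq⟩ := huniv (R ⧸ LinearMap.range e) 0 (fun b n => by simp)
  have h0 : (0 : R →ₗ[R] R ⧸ LinearMap.range e) = h' := huniq 0 (fun n => by simp)
  have h1 : (LinearMap.range e).mkQ = h' := huniq _ (fun n => by
    rw [LinearMap.zero_apply, Submodule.mkQ_apply, Submodule.Quotient.mk_eq_zero]
    exact LinearMap.mem_range_self e n)
  have h2 : (LinearMap.range e).mkQ = 0 := h1.trans h0.symm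
  have h3 : LinearMap.range e = ⊤ := by
    rw [← Submodule.ker_mkQ (LinearMap.range e), h2, LinearMap.ker_zero]
  exact LinearMap.range_eq_top.mp h3

/-- For a line bundle, an `ε`-semilinear surjection onto `R` has the universal property of the
frozen `Rigid`. -/
theorem rigid_of_rigid1308 (N : GluedModule (𝒞.chart R)) (hN : N.IsLineBundle)
    (h : T1308.Rigid (𝒞.epsR R) N) : Fermat.Agent.S25.Rigid 𝒞 N := by
  obtain ⟨ρ⟩ := h
  have := hN.inv₁
  obtain ⟨n₀, h₀⟩ := ρ.exists_eq_one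
  refine ⟨ρ.ρ, ρ.ρ_smul, ?_⟩
  intro Q _ _ h hh
  -- `h` kills `𝔪_ε N₁`
  have hker : ∀ n : N.N₁,
      n ∈ (RingHom.ker ((𝒞.epsR R : (𝒞.chart R).B₁ →ₐ[R] R) : (𝒞.chart R).B₁ →+* R)) •
        (⊤ : Submodule (𝒞.chart R).B₁ N.N₁) → h n = 0 := by
    intro n hn
    refine Submodule.smul_induction_on hn (fun b hb m _ => ?_) (fun x y hx hy => ?_)
    · rw [hh]
      have hb' : 𝒞.epsR R b = 0 := hb
      rw [hb', zero_smul]
    · rw [map_add, hx, hy, add_zero]
  have key : ∀ n : N.N₁, h n = ρ.ρ n • h n₀ := by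
    intro n
    have h1 : ρ.ρ (n - algebraMap R (𝒞.chart R).B₁ (ρ.ρ n) • n₀) = 0 := by
      rw [map_sub, ρ.ρ_smul, h₀, mul_one, T1308.eps_algebraMap, sub_self]
    have h2 := hker _ (ρ.mem_smul_top_of_ρ_eq_zero h1)
    rw [map_sub, sub_eq_zero, algebraMap_smul, map_smul] at h2
    exact h2
  refine ⟨LinearMap.toSpanSingleton R Q (h n₀), fun n => ?_, fun h'' hh'' => ?_⟩
  · change ρ.ρ n • h n₀ = h n
    exact (key n).symm
  · apply LinearMap.ext
    intro r
    change h'' r = r • h n₀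
    have : h'' r = h'' (r • (1 : R)) := by rw [smul_eq_mul, mul_one]
    rw [this, map_smul, ← h₀, hh'' n₀]

theorem rigid_iff_rigid1308 (N : GluedModule (𝒞.chart R)) (hN : N.IsLineBundle) :
    Fermat.Agent.S25.Rigid 𝒞 N ↔ T1308.Rigid (𝒞.epsR R) N :=
  ⟨rigid1308_of_rigid 𝒞 N, rigid_of_rigid1308 𝒞 N hN⟩

end RIGT

/-- LEAF `RIGT`: tensoring with a rigid line bundle does not change rigidity
(`ε`-fibre of `L ⊗ P` = `ε`-fibre of `L` ⊗_R `ε`-fibre of `P`). -/
theorem rigid_tensor_iff {R : Type u} [CommRing R] [Algebra k R]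
    (L P : GluedModule (𝒞.chart R)) (hL : L.IsLineBundle) (hP : P.IsLineBundle)
    (hr : Rigid 𝒞 P) : Rigid 𝒞 (tensor L P) ↔ Rigid 𝒞 L := by
  have hLP : (tensor L P).IsLineBundle := tensor_isLineBundle hL hP
  have hP' : T1308.Rigid (𝒞.epsR R) P := RIGT.rigid1308_of_rigid 𝒞 P hr
  rw [RIGT.rigid_iff_rigid1308 𝒞 _ hLP, RIGT.rigid_iff_rigid1308 𝒞 _ hL]
  constructor
  · intro h
    -- `L ≅ (L ⊗ P) ⊗ P^∨`
    have h1 : T1308.Rigid (𝒞.epsR R) (tensor (tensor L P) (lbDual P hP)) :=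
      h.tensor (hP'.lbDual hP)
    exact h1.of_iso ((tensorAssoc L P (lbDual P hP)).trans
      ((tensorIso (GluedModule.Iso.refl L) (tensorLbDualIso hP)).trans (tensorUnitRight L)))
  · intro h
    exact h.tensor hP'

end Fermat.Agent.S25.ATLAS.TW
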