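/-
S25 package ATLAS, sub-package TW, LEAF `TS` (helper9431, TW deputy):
`L ⊗ (𝔞 • O) ≅ 𝔞 • L` for a line bundle `L` on any two-chart over any ring.

Chartwise the map is `L_i ⊗ 𝔞_i → 𝔞_i L_i`, `n ⊗ b ↦ b • n`; it is injective because `L_i` is
flat, and surjective by definition of `𝔞_i L_i`.  Complete (no placeholders).
-/
import Fermat.Agent.S25.ATLAS.TW.Defs

set_option autoImplicit false

universe u

namespace Fermat.Agent.S25.ATLAS.TW.TS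

open scoped TensorProduct

section Single

variable {B : Type*} [CommRing B] (M : Type*) [AddCommGroup M] [Module B M] (I : Ideal B)

/-- `M ⊗ I → M`, `m ⊗ b ↦ b • m` (with `I` written as the submodule `I • ⊤` of `B`). -/
noncomputable def mulMap : M ⊗[B] ↥(I • (⊤ : Submodule B B)) →ₗ[B] M :=
  (TensorProduct.rid B M).toLinearMap ∘ₗ LinearMap.lTensor M (I • (⊤ : Submodule B B)).subtype

@[simp] theorem mulMap_tmul (m : M) (b : ↥(I • (⊤ : Submodule B B))) :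
    mulMap M I (m ⊗ₜ[B] b) = (b : B) • m := by
  simp [mulMap]

theorem mulMap_injective [Module.Flat B M] : Function.Injective (mulMap M I) := by
  unfold mulMap
  rw [LinearMap.coe_comp, LinearEquiv.coe_coe]
  exact (TensorProduct.rid B M).injective.comp
    (Module.Flat.lTensor_preserves_injective_linearMap _ Subtype.val_injective)

theorem mem_smul_top_self {b : B} (hb : b ∈ I • (⊤ : Submodule B B)) : b ∈ I := by
  rwa [smul_eq_mul, Ideal.mul_top] at hb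

theorem mulMap_mem (t : M ⊗[B] ↥(I • (⊤ : Submodule B B))) :
    mulMap M I t ∈ I • (⊤ : Submodule B M) := by
  induction t using TensorProduct.induction_on with
  | zero => rw [map_zero]; exact Submodule.zero_mem _
  | tmul m b =>
    rw [mulMap_tmul]
    exact Submodule.smul_mem_smul (mem_smul_top_self I b.2) Submodule.mem_top
  | add x y hx hy => rw [map_add]; exact Submodule.add_mem _ hx hy

/-- `M ⊗ I → I M`. -/
noncomputable def mulMapR : M ⊗[B] ↥(I • (⊤ : Submodule B B)) →ₗ[B] ↥(I • (⊤ : Submodule B M)) :=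
  (mulMap M I).codRestrict _ (mulMap_mem M I)

@[simp] theorem mulMapR_coe (t : M ⊗[B] ↥(I • (⊤ : Submodule B B))) :
    ((mulMapR M I t : ↥(I • (⊤ : Submodule B M))) : M) = mulMap M I t := rfl

theorem mulMapR_injective [Module.Flat B M] : Function.Injective (mulMapR M I) := by
  intro x y h
  exact mulMap_injective M I (congrArg Subtype.val h)

theorem mulMapR_surjective : Function.Surjective (mulMapR M I) := by
  rw [← LinearMap.range_eq_top]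
  have h : (I • (⊤ : Submodule B M)) ≤
      (LinearMap.range (mulMapR M I)).map (I • (⊤ : Submodule B M)).subtype := by
    rw [Submodule.smul_le]
    intro a ha m _
    have ha' : a ∈ I • (⊤ : Submodule B B) := by
      rw [smul_eq_mul, Ideal.mul_top]; exact ha
    refine ⟨mulMapR M I (m ⊗ₜ[B] ⟨a, ha'⟩), ⟨_, rfl⟩, ?_⟩
    change mulMap M I (m ⊗ₜ[B] ⟨a, ha'⟩) = a • m
    rw [mulMap_tmul]
  rw [eq_top_iff]
  rintro ⟨x, hx⟩ -
  obtain ⟨y, hy, hyx⟩ := h hx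
  have : y = ⟨x, hx⟩ := Subtype.ext hyx
  rwa [this] at hy

/-- `M ⊗ I ≃ I M` for a flat module `M`. -/
noncomputable def smulEquiv [Module.Flat B M] :
    M ⊗[B] ↥(I • (⊤ : Submodule B B)) ≃ₗ[B] ↥(I • (⊤ : Submodule B M)) :=
  LinearEquiv.ofBijective (mulMapR M I) ⟨mulMapR_injective M I, mulMapR_surjective M I⟩

@[simp] theorem smulEquiv_tmul_coe [Module.Flat B M] (m : M) (b : ↥(I • (⊤ : Submodule B B))) :
    ((smulEquiv M I (m ⊗ₜ[B] b) : ↥(I • (⊤ : Submodule B M))) : M) = (b : B) • m :=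
  mulMap_tmul M I m b

end Single

end Fermat.Agent.S25.ATLAS.TW.TS

namespace Fermat.Agent.S25.ATLAS.TW

open scoped TensorProduct

open GluedModule T1308

variable {R : Type u} [CommRing R] {𝔹 : TwoChart R}

namespace TS

variable (L : GluedModule 𝔹) (𝔞 : IdealDatum 𝔹)

/-- Chart 1 of the isomorphism `L ⊗ (𝔞 • O) ≅ 𝔞 • L`. -/
noncomputable def e₁ [Module.Flat 𝔹.B₁ L.N₁] :
    (tensor L (𝔞.smul (GluedModule.unit 𝔹))).N₁ ≃ₗ[𝔹.B₁] (𝔞.smul L).N₁ :=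
  smulEquiv L.N₁ 𝔞.a₁

/-- Chart 2 of the isomorphism `L ⊗ (𝔞 • O) ≅ 𝔞 • L`. -/
noncomputable def e₂ [Module.Flat 𝔹.B₂ L.N₂] :
    (tensor L (𝔞.smul (GluedModule.unit 𝔹))).N₂ ≃ₗ[𝔹.B₂] (𝔞.smul L).N₂ :=
  smulEquiv L.N₂ 𝔞.a₂

/-- The overlap part of the isomorphism `L ⊗ (𝔞 • O) ≅ 𝔞 • L`. -/
noncomputable def e₁₂ [Module.Flat 𝔹.B₁₂ L.N₁₂] :
    (tensor L (𝔞.smul (GluedModule.unit 𝔹))).N₁₂ ≃ₗ[𝔹.B₁₂] (𝔞.smul L).N₁₂ :=
  smulEquiv L.N₁₂ 𝔞.a₁₂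

theorem e₁_tmul_coe [Module.Flat 𝔹.B₁ L.N₁] (n : L.N₁)
    (b : (𝔞.smul (GluedModule.unit 𝔹)).N₁) :
    ((e₁ L 𝔞 (n ⊗ₜ[𝔹.B₁] b) : (𝔞.smul L).N₁) : L.N₁) = (b : 𝔹.B₁) • n :=
  smulEquiv_tmul_coe L.N₁ 𝔞.a₁ n b

theorem e₂_tmul_coe [Module.Flat 𝔹.B₂ L.N₂] (n : L.N₂)
    (b : (𝔞.smul (GluedModule.unit 𝔹)).N₂) :
    ((e₂ L 𝔞 (n ⊗ₜ[𝔹.B₂] b) : (𝔞.smul L).N₂) : L.N₂) = (b : 𝔹.B₂) • n :=
  smulEquiv_tmul_coe L.N₂ 𝔞.a₂ n b

theorem e₁₂_tmul_coe [Module.Flat 𝔹.B₁₂ L.N₁₂] (n : L.N₁₂)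
    (b : (𝔞.smul (GluedModule.unit 𝔹)).N₁₂) :
    ((e₁₂ L 𝔞 (n ⊗ₜ[𝔹.B₁₂] b) : (𝔞.smul L).N₁₂) : L.N₁₂) = (b : 𝔹.B₁₂) • n :=
  smulEquiv_tmul_coe L.N₁₂ 𝔞.a₁₂ n b

theorem comm_aux₁ [Module.Flat 𝔹.B₁ L.N₁] [Module.Flat 𝔹.B₁₂ L.N₁₂]
    (t : (tensor L (𝔞.smul (GluedModule.unit 𝔹))).N₁) :
    e₁₂ L 𝔞 ((tensor L (𝔞.smul (GluedModule.unit 𝔹))).ι₁ t) = (𝔞.smul L).ι₁ (e₁ L 𝔞 t) := by
  induction t using TensorProduct.induction_on with
  | zero => rw [map_zero, map_zero, map_zero, map_zero]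
  | tmul n b =>
    apply Subtype.ext
    rw [SubGlued.toGlued_ι₁_coe, e₁_tmul_coe, L.ι₁_smul]
    exact e₁₂_tmul_coe L 𝔞 (L.ι₁ n) ((𝔞.smul (GluedModule.unit 𝔹)).ι₁ b)
  | add x y hx hy => rw [map_add, map_add, map_add, map_add, hx, hy]

theorem comm_aux₂ [Module.Flat 𝔹.B₂ L.N₂] [Module.Flat 𝔹.B₁₂ L.N₁₂]
    (t : (tensor L (𝔞.smul (GluedModule.unit 𝔹))).N₂) :
    e₁₂ L 𝔞 ((tensor L (𝔞.smul (GluedModule.unit 𝔹))).ι₂ t) = (𝔞.smul L).ι₂ (e₂ L 𝔞 t) := by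
  induction t using TensorProduct.induction_on with
  | zero => rw [map_zero, map_zero, map_zero, map_zero]
  | tmul n b =>
    apply Subtype.ext
    rw [SubGlued.toGlued_ι₂_coe, e₂_tmul_coe, L.ι₂_smul]
    exact e₁₂_tmul_coe L 𝔞 (L.ι₂ n) ((𝔞.smul (GluedModule.unit 𝔹)).ι₂ b)
  | add x y hx hy => rw [map_add, map_add, map_add, map_add, hx, hy]

end TS

/-- LEAF `TS` (any two-chart over any ring): `L ⊗ (𝔞 • O) ≅ 𝔞 • L` for a line bundle `L`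
(chartwise `L_i ⊗ 𝔞_i → 𝔞_i L_i`, injective because `L_i` is flat). -/
theorem tensorSmulIso (L : GluedModule 𝔹)
    (hL : L.IsLineBundle) (𝔞 : IdealDatum 𝔹) :
    Nonempty ((tensor L (𝔞.smul (GluedModule.unit 𝔹))).Iso (𝔞.smul L)) := by
  have := hL.inv₁
  have := hL.inv₂
  have := isLineBundle_inv₁₂ hL
  exact ⟨{ e₁ := TS.e₁ L 𝔞
           e₂ := TS.e₂ L 𝔞
           e₁₂ := TS.e₁₂ L 𝔞
           comm₁ := TS.comm_aux₁ L 𝔞
           comm₂ := TS.comm_aux₂ L 𝔞 }⟩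

end Fermat.Agent.S25.ATLAS.TW
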