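/-
S25 package ATLAS, sub-package TW — PLAN (sub-captain helper228).
`exists_twistFamily` is derived (end of file) from the LEAVES below (exact statements, `sorry`).
See BOARD_S25_ATLAS_TW.md (origin/helper228) for the mathematics of each leaf and how to deliver.

Design: `δ = (N, [x₁,…,x_m])`, `x_j` `k`-points of `U₁ ∩ U₂`, `N·n₀ - m = genus`,
`P δ = O(N·D∞ - x₁ - … - x_m)` over `k` (`TW.bundle 𝒞 k δ`), and
`tw δ R L M := ∃ P_R, IsBC (k → R) (P δ) P_R ∧ M ≅ L ⊗ P_R` (`TW.TwRel`).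
-/
import Fermat.Agent.S25.ATLAS.RIG
import Fermat.Agent.S25.ATLAS.TW.Defs
import Fermat.Agent.S25.ATLAS.TW.Curve
import Fermat.Agent.S25.ATLAS.TW.BCT
import Fermat.Agent.S25.ATLAS.TW.RIGT
import Fermat.Agent.S25.ATLAS.TW.RIGK
import Fermat.Agent.S25.ATLAS.TW.TS
import Fermat.Agent.S25.ATLAS.TW.PTS
import Fermat.Agent.S25.ATLAS.TW.INST
import Fermat.Agent.S25.ATLAS.TW.GOODISO
import Fermat.Agent.S25.ATLAS.TW.N0
import Fermat.Agent.S25.ATLAS.TW.GENUS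
import Fermat.Agent.S25.ATLAS.TW.PT1
import Fermat.Agent.S25.ATLAS.TW.PT2
import Fermat.Agent.S25.ATLAS.TW.LB
import Fermat.Agent.S25.ATLAS.TW.CHIK
import Fermat.Agent.S25.ATLAS.TW.BCB
import Fermat.Agent.S25.ATLAS.TW.GOODK

set_option autoImplicit false

universe u

namespace Fermat.Agent.S25.ATLAS.TW

open scoped TensorProduct

open GluedModule T1308

variable {k : Type u} [Field k] (𝒞 : CurveData k)

/-! ## Level I: formal leaves (any family of bundles over `k`) -/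

/-! ## Level I: assembly (no sorry of its own) -/

theorem ofId_comp {R R' : Type u} [CommRing R] [Algebra k R] [CommRing R'] [Algebra k R']
    (φ : R →ₐ[k] R') : φ.comp (Algebra.ofId k R) = Algebra.ofId k R' :=
  AlgHom.ext fun x => by simp [Algebra.ofId_apply]

theorem rigid_of_iso {R : Type u} [CommRing R] [Algebra k R] (M M' : GluedModule (𝒞.chart R))
    (h : Rigid 𝒞 M) (e : Nonempty (M.Iso M')) : Rigid 𝒞 M' :=
  rigid_of_isBC 𝒞 (AlgHom.id k R) M M' h ((isBC_id_iff 𝒞 M M').mpr e)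

/-- The twist family attached to a family `P : Δ → GluedModule (𝒞.chart k)` of line bundles
over `k`, given the two non-formal properties (`chi`, `good`). -/
theorem twistFamily_of_bundles (Δ : Type u) (P : Δ → GluedModule (𝒞.chart k))
    (hP : ∀ δ, (P δ).IsLineBundle)
    (hchi : ∀ (δ : Δ) (κ : Type u) [Field κ] [IsAlgClosed κ] [Algebra k κ]
      (L P' : GluedModule (𝒞.chart κ)), L.IsLineBundle →
      IsBC (𝒞.chartHom (Algebra.ofId k κ)) (P δ) P' →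
        GluedModule.chi (tensor L P') = GluedModule.chi L + genus 𝒞)
    (hgood : ∀ (κ : Type u) [Field κ] [IsAlgClosed κ] [Algebra k κ]
      (L : GluedModule (𝒞.chart κ)), IsPic0 𝒞 L →
      ∃ (δ : Δ) (P' : GluedModule (𝒞.chart κ)),
        IsBC (𝒞.chartHom (Algebra.ofId k κ)) (P δ) P' ∧ Good 𝒞 (tensor L P')) :
    Nonempty (TwistFamily 𝒞) := by
  refine ⟨{
    Δ := Δ
    tw := fun δ R _ _ L M => TwRel 𝒞 (P δ) R L M
    exists_up := ?_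
    exists_down := ?_
    unique_up := ?_
    unique_down := ?_
    bc := ?_
    rigid_iff := ?_
    chi := ?_
    good := ?_ }⟩
  · -- exists_up
    intro δ R _ _ L hL
    obtain ⟨P', hP'⟩ := exists_isBC 𝒞 (Algebra.ofId k R) (P δ)
    have hlb : P'.IsLineBundle := isLineBundle_of_isBC 𝒞 _ _ _ (hP δ) hP'
    exact ⟨tensor L P', tensor_isLineBundle hL hlb, P', hP', ⟨GluedModule.Iso.refl _⟩⟩
  · -- exists_down
    intro δ R _ _ M hM
    obtain ⟨P', hP'⟩ := exists_isBC 𝒞 (Algebra.ofId k R) (P δ)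
    have hlb : P'.IsLineBundle := isLineBundle_of_isBC 𝒞 _ _ _ (hP δ) hP'
    refine ⟨tensor M (lbDual P' hlb), tensor_isLineBundle hM (lbDual_isLineBundle hlb), P', hP',
      ⟨?_⟩⟩
    exact ((tensorAssoc M (lbDual P' hlb) P').trans
      ((tensorIso (GluedModule.Iso.refl M) (lbDualTensorIso hlb)).trans (tensorUnitRight M))).symm
  · -- unique_up
    rintro δ R _ _ L M M' hL hM hM' ⟨P', hP', ⟨e⟩⟩ ⟨P'', hP'', ⟨e'⟩⟩
    obtain ⟨i⟩ := isBC_unique 𝒞 _ _ _ _ hP' hP''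
    exact ⟨e.trans ((tensorIso (GluedModule.Iso.refl L) i).trans e'.symm)⟩
  · -- unique_down
    rintro δ R _ _ L L' M hL hL' hM ⟨P', hP', ⟨e⟩⟩ ⟨P'', hP'', ⟨e'⟩⟩
    obtain ⟨i⟩ := isBC_unique 𝒞 _ _ _ _ hP' hP''
    have hlb : P'.IsLineBundle := isLineBundle_of_isBC 𝒞 _ _ _ (hP δ) hP'
    exact ⟨tensorCancelRight hlb (e.symm.trans (e'.trans
      (tensorIso (GluedModule.Iso.refl L') i.symm)))⟩
  · -- bc
    rintro δ R R' _ _ _ _ φ L M L' M' hL hM ⟨P₁, hP₁, ⟨e⟩⟩ hLL' hMM'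
    obtain ⟨P₂, hP₂⟩ := exists_isBC 𝒞 φ P₁
    have hlb : P₁.IsLineBundle := isLineBundle_of_isBC 𝒞 _ _ _ (hP δ) hP₁
    have hcomp := isBC_comp 𝒞 (Algebra.ofId k R) φ (P δ) P₁ P₂ hP₁ hP₂
    rw [ofId_comp] at hcomp
    have h₁ : IsBC (𝒞.chartHom φ) (tensor L P₁) (tensor L' P₂) :=
      isBC_tensor 𝒞 φ L P₁ L' P₂ hL hlb hLL' hP₂
    have h₂ : IsBC (𝒞.chartHom φ) M (tensor L' P₂) :=
      isBC_of_iso 𝒞 φ _ _ _ _ h₁ ⟨e.symm⟩ ⟨GluedModule.Iso.refl _⟩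
    exact ⟨P₂, hcomp, isBC_unique 𝒞 φ M M' _ hMM' h₂⟩
  · -- rigid_iff
    rintro δ R _ _ L M hL hM ⟨P', hP', ⟨e⟩⟩
    have hlb : P'.IsLineBundle := isLineBundle_of_isBC 𝒞 _ _ _ (hP δ) hP'
    have hr : Rigid 𝒞 P' :=
      rigid_of_isBC 𝒞 (Algebra.ofId k R) (P δ) P' (rigid_of_field 𝒞 (P δ) (hP δ)) hP'
    rw [← rigid_tensor_iff 𝒞 L P' hL hlb hr]
    exact ⟨fun h => rigid_of_iso 𝒞 _ _ h ⟨e.symm⟩, fun h => rigid_of_iso 𝒞 _ _ h ⟨e⟩⟩
  · -- chi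
    rintro δ κ _ _ _ L M hL hM ⟨P', hP', e⟩
    rw [chi_congr 𝒞 M (tensor L P') e]
    exact hchi δ κ L P' hL hP'
  · -- good
    intro κ _ _ _ L hL
    obtain ⟨δ, P', hP', hg⟩ := hgood κ L hL
    have hlb : P'.IsLineBundle := isLineBundle_of_isBC 𝒞 _ _ _ (hP δ) hP'
    exact ⟨δ, tensor L P', tensor_isLineBundle hL.lineBundle hlb,
      ⟨P', hP', ⟨GluedModule.Iso.refl _⟩⟩, hg⟩

/-! ## Level II: the concrete family `P δ = O(N·D∞ - x₁ - … - x_m)` -/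

variable [IsAlgClosed k]

section LevelII

variable (κ : Type u) [Field κ] [IsAlgClosed κ] [Algebra k κ]

/-! ### Level II assembly (no sorry of its own) -/

theorem bundle_isLineBundle (δ : ℕ × List (𝒞.A₁₂ →ₐ[k] k)) : (bundle 𝒞 κ δ).IsLineBundle :=
  GluedModule.twist_isLineBundle
    (smul_divDatum_isLineBundle 𝒞 κ _ (GluedModule.unit_isLineBundle _) δ.2) _

theorem tensorBundleIso (L : GluedModule (𝒞.chart κ)) (hL : L.IsLineBundle)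
    (δ : ℕ × List (𝒞.A₁₂ →ₐ[k] k)) :
    Nonempty ((tensor L (bundle 𝒞 κ δ)).Iso (((divDatum 𝒞 κ δ.2).smul L).twist (δ.1 : ℤ))) := by
  obtain ⟨e⟩ := tensorSmulIso L hL (divDatum 𝒞 κ δ.2)
  exact ⟨(tensorTwistRight L _ _).trans (e.twist _)⟩

theorem chi_tensor_bundle (δ : Idx 𝒞) (L P' : GluedModule (𝒞.chart κ)) (hL : L.IsLineBundle)
    (h : IsBC (𝒞.chartHom (Algebra.ofId k κ)) (bundle 𝒞 k δ.1) P') :
    GluedModule.chi (tensor L P') = GluedModule.chi L + genus 𝒞 := by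
  obtain ⟨i⟩ := isBC_unique 𝒞 _ _ P' (bundle 𝒞 κ δ.1) h (isBC_bundle 𝒞 κ δ.1)
  obtain ⟨j⟩ := tensorBundleIso 𝒞 κ L hL δ.1
  rw [chi_congr 𝒞 _ _ ⟨(tensorIso (GluedModule.Iso.refl L) i).trans j⟩,
    chi_smul_twist 𝒞 κ L hL]
  have h2 : ((δ.1.1 * n₀ 𝒞 : ℕ) : ℤ) = ((δ.1.2.length + genus 𝒞 : ℕ) : ℤ) := by rw [δ.2]
  push_cast at h2
  omega

theorem exists_good_bundle (L : GluedModule (𝒞.chart κ)) (hL : IsPic0 𝒞 L) :
    ∃ (δ : Idx 𝒞) (P' : GluedModule (𝒞.chart κ)),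
      IsBC (𝒞.chartHom (Algebra.ofId k κ)) (bundle 𝒞 k δ.1) P' ∧ Good 𝒞 (tensor L P') := by
  have hchi : GluedModule.chi L = GluedModule.chi (GluedModule.unit (𝒞.chart κ)) :=
    hL.deg0 κ (AlgHom.id k κ) L ((isBC_id_iff 𝒞 L L).mpr ⟨GluedModule.Iso.refl L⟩)
  obtain ⟨N, l, hN, hg⟩ := exists_good_down 𝒞 κ L hL.lineBundle hchi
  obtain ⟨j⟩ := tensorBundleIso 𝒞 κ L hL.lineBundle (N, l)
  exact ⟨⟨(N, l), hN⟩, bundle 𝒞 κ (N, l), isBC_bundle 𝒞 κ (N, l),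
    good_of_iso 𝒞 κ _ _ hg ⟨j.symm⟩⟩

end LevelII

/-- The sub-stub `ATLAS.exists_twistFamily`, from the leaves. -/
theorem exists_twistFamily_of_leaves : Nonempty (TwistFamily 𝒞) :=
  twistFamily_of_bundles 𝒞 (Idx 𝒞) (fun δ => bundle 𝒞 k δ.1)
    (fun δ => bundle_isLineBundle 𝒞 k δ.1)
    (fun δ κ _ _ _ L P' hL h => chi_tensor_bundle 𝒞 κ δ L P' hL h)
    (fun κ _ _ _ L hL => exists_good_bundle 𝒞 κ L hL)

end Fermat.Agent.S25.ATLAS.TW
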